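import Mathlib
import Fermat.Agent.S28.Defs

/-!
# S36 / MOD3 (helper972): the formal `q`-series INTERFACE of the middle valuation

`J = j(t) ∈ ℤ((t))`, `J_q = j(t^q)`, `J_{q²} = j(t^{q²})`.  The minimal polynomial of `j_{q²}` over
`F_{qM'} = E(j_d, j_{qd} : d ∣ M')` is `Ψ(Y) = Φ_q(j_q, Y) / (Y - j)`.  `EisSeries q A Ψ G` records
the facts about its `t`-expansion which make `Ψ` "split-Eisenstein" at the Gauss valuation:

    Ψ = (Y - A) (Y - J)^(q-1) + q G,     A ≡ J_{q²} mod q,   A - J  and  G(J)  primitive mod q.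

(`A = J^(q²)` or `A = J_q^q`.)  Consumer: `Fermat/Agent/S36/H972/Mod3.lean`.
Producer: the EIS sub-leaf (formal `q`-series, Kronecker congruence).
-/

set_option autoImplicit false

noncomputable section

namespace Fermat.Agent.S36.H972

open Polynomial ModularCurve Fermat.Agent.S28

/-- The subring `ℤ[J, J_q] ⊆ ℤ((t))`. -/
def jjRing (q : ℕ) [NeZero q] : Subring (LaurentSeries ℤ) :=
  Subring.closure ({jqModC ℤ, qExpand ℤ q (jqModC ℤ)} : Set (LaurentSeries ℤ))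

/-- The split-Eisenstein shape of `Ψ(Y) = Φ_q(J_q, Y) / (Y - J)` over `ℤ((t))`. -/
structure EisSeries (q : ℕ) [NeZero q] (A : LaurentSeries ℤ) (Ψ G : (LaurentSeries ℤ)[X]) :
    Prop where
  monic : Ψ.Monic
  natDegree_eq : Ψ.natDegree = q
  coeff_mem : ∀ i, Ψ.coeff i ∈ jjRing q
  root : Ψ.eval (qExpand ℤ (q * q) (jqModC ℤ)) = 0
  A_mem : A ∈ jjRing q
  A_cong : ∃ H : LaurentSeries ℤ, qExpand ℤ (q * q) (jqModC ℤ) - A = (q : LaurentSeries ℤ) * H
  A_unit : ∃ n : ℤ, ¬ (q : ℤ) ∣ (A - jqModC ℤ).coeff n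
  dec : Ψ = (X - C A) * (X - C (jqModC ℤ)) ^ (q - 1) + C (q : LaurentSeries ℤ) * G
  unit : ∃ n : ℤ, ¬ (q : ℤ) ∣ (G.eval (jqModC ℤ)).coeff n

end Fermat.Agent.S36.H972

end
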