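import Fermat.Agent.S36.H83.Eis
import Fermat.Agent.S28.H326.Final
import Fermat.Agent.S36.H972.EisSeries

/-!
# S36 / MOD3 (helper972): the formal input `EisSeries` from helper83's EIS leaf

`exists_eisSeries q hq : ∃ Ψ G, EisSeries q (J ^ (q ^ 2)) Ψ G` for every prime `q`, from
`S36/H83/Eis.lean` (`h83_eisPsi_eq_add`, `h83_eisPsi_mem_lifts`, `h83_eisPsi_eval_jpp`) and the
modular polynomial `S28.H326.nonempty_modPolyData`.
-/

set_option autoImplicit false

noncomputable section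

namespace Fermat.Agent.S36.H972

open Polynomial ModularCurve Fermat.Agent.S28 Fermat.Agent.S36.H83

theorem exists_not_dvd_of_red_ne_zero (q : ℕ) {x : LaurentSeries ℤ} (hx : h83_red q x ≠ 0) :
    ∃ n : ℤ, ¬ (q : ℤ) ∣ x.coeff n := by
  by_contra hcon
  simp only [not_exists, not_not] at hcon
  apply hx
  ext n
  simp only [h83_red, coeffMap_coeff, HahnSeries.coeff_zero, Int.coe_castRingHom]
  exact (ZMod.intCast_zmod_eq_zero_iff_dvd _ q).mpr (hcon n)

theorem exists_eisSeries (q : ℕ) [NeZero q] (hq : q.Prime) :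
    ∃ Ψ G : (LaurentSeries ℤ)[X], EisSeries q (jqModC ℤ ^ (q ^ 2)) Ψ G := by
  have : Fact q.Prime := ⟨hq⟩
  obtain ⟨Φ⟩ := Fermat.Agent.S28.H326.nonempty_modPolyData q hq
  obtain ⟨G, hdec, -, hG, hA⟩ := h83_eisPsi_eq_add q Φ
  have hJ : jqModC ℤ ∈ jjRing q := Subring.subset_closure (by simp)
  have hJq : qExpand ℤ q (jqModC ℤ) ∈ jjRing q := Subring.subset_closure (by simp)
  have hqq : qExpand ℤ (q * q) (jqModC ℤ) = qExpand ℤ q (qExpand ℤ q (jqModC ℤ)) :=
    (qExpand_qExpand q q (jqModC ℤ)).symm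
  refine ⟨h83_eisPsi q Φ, G, ?_⟩
  refine
    { monic := h83_eisPsi_monic q Φ
      natDegree_eq := h83_eisPsi_natDegree q Φ
      coeff_mem := ?_
      root := by rw [hqq]; exact h83_eisPsi_eval_jpp q Φ
      A_mem := pow_mem hJ _
      A_cong := ?_
      A_unit := exists_not_dvd_of_red_ne_zero q hA
      dec := by rw [hdec]; ring
      unit := exists_not_dvd_of_red_ne_zero q hG }
  · intro i
    obtain ⟨Ψ₀, -, hΨ₀⟩ := h83_eisPsi_mem_lifts q Φ (jjRing q) hJ hJq
    rw [← hΨ₀, Polynomial.coeff_map]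
    exact (Ψ₀.coeff i).2
  · have h0 : h83_red q (qExpand ℤ (q * q) (jqModC ℤ) - jqModC ℤ ^ (q ^ 2)) = 0 := by
      rw [map_sub, hqq, h83_red_jpp, map_pow, h83_red_j, sub_self]
    obtain ⟨H, hH⟩ := h83_dvd_of_red_eq_zero q h0
    exact ⟨H, hH⟩

end Fermat.Agent.S36.H972

end
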