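import Mathlib
import Fermat.Agent.A2.H48.TwoVal

/-!
# S36 / MOD3 (helper972): a locally principal maximal ideal of a noetherian subring gives a
valuation subring

Mathlib-only (+ `H48.IsUnif`).  `L` a field, `S ⊆ L` a noetherian subring with `L = Frac S`,
`𝔪` a maximal ideal of `S`, `z ∈ 𝔪` with `𝔪 S_𝔪 = z S_𝔪` (elementwise: `LocGen`).  Then

* `locVal S 𝔪 z h hfrac : ValuationSubring L` is the localisation `S_𝔪` inside `L`;
* `mem_locVal_iff` : `f ∈ S_𝔪 ↔ ∃ s t, t ∉ 𝔪 ∧ f * t = s`;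
* `isUnif_locVal` : `z` is a uniformiser;
* `exists_sub_mem_locVal` : the residue field of `S_𝔪` is `S / 𝔪`;
* `eq_locVal_of_le` : a valuation subring `V' ⊇ S` with centre `𝔪` on `S` equals `S_𝔪`.
-/

set_option autoImplicit false
set_option linter.style.haveILetI false
set_option linter.unusedSectionVars false

namespace Fermat.Agent.S36.H972

open Fermat.Agent.A2.H48 IsLocalRing

section LocVal

variable {L : Type*} [Field L] (S : Subring L) (𝔪 : Ideal S) (z : S)

/-- `z ∈ 𝔪`, `z ≠ 0` and `𝔪 S_𝔪 = z S_𝔪`, elementwise. -/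
structure LocGen : Prop where
  mem : z ∈ 𝔪
  ne_zero : z ≠ 0
  gen : ∀ s ∈ 𝔪, ∃ t s' : S, t ∉ 𝔪 ∧ s * t = z * s'

/-- `L` is the fraction field of `S`, elementwise. -/
def IsFracOf : Prop := ∀ f : L, ∃ s t : S, t ≠ 0 ∧ f * (t : L) = (s : L)

variable {S 𝔪 z}

theorem isUnit_subtype_of_primeCompl [𝔪.IsMaximal] (t : 𝔪.primeCompl) :
    IsUnit (S.subtype (t : S)) := by
  have ht : (t : S) ≠ 0 := by
    intro h
    exact t.2 (h ▸ 𝔪.zero_mem)
  exact IsUnit.mk0 _ (fun h => ht (Subtype.ext h))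

variable (S 𝔪) in
/-- The canonical map `S_𝔪 → L`. -/
noncomputable def locMap [𝔪.IsMaximal] : Localization.AtPrime 𝔪 →+* L :=
  IsLocalization.lift (M := 𝔪.primeCompl) (g := S.subtype) isUnit_subtype_of_primeCompl

theorem locMap_algebraMap [𝔪.IsMaximal] (s : S) :
    locMap S 𝔪 (algebraMap S (Localization.AtPrime 𝔪) s) = (s : L) :=
  IsLocalization.lift_eq _ s

theorem locMap_mk' [𝔪.IsMaximal] (s : S) (t : 𝔪.primeCompl) :
    locMap S 𝔪 (IsLocalization.mk' (Localization.AtPrime 𝔪) s t) * ((t : S) : L) = (s : L) := by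
  have h := IsLocalization.mk'_spec (Localization.AtPrime 𝔪) s t
  have h2 := congrArg (locMap S 𝔪) h
  rw [map_mul, locMap_algebraMap, locMap_algebraMap] at h2
  exact h2

theorem locMap_injective [𝔪.IsMaximal] : Function.Injective (locMap S 𝔪) := by
  rw [injective_iff_map_eq_zero]
  intro a ha
  obtain ⟨s, t, rfl⟩ := IsLocalization.exists_mk'_eq 𝔪.primeCompl a
  have h := locMap_mk' (S := S) (𝔪 := 𝔪) s t
  rw [ha, zero_mul] at h
  have hs : s = 0 := Subtype.ext h.symm
  rw [hs, IsLocalization.mk'_zero]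

theorem mem_range_locMap_iff [𝔪.IsMaximal] {f : L} :
    f ∈ (locMap S 𝔪).range ↔ ∃ s t : S, t ∉ 𝔪 ∧ f * (t : L) = (s : L) := by
  constructor
  · rintro ⟨a, rfl⟩
    obtain ⟨s, t, rfl⟩ := IsLocalization.exists_mk'_eq 𝔪.primeCompl a
    exact ⟨s, t, t.2, locMap_mk' s t⟩
  · rintro ⟨s, t, ht, hft⟩
    have ht' : t ∈ 𝔪.primeCompl := ht
    refine ⟨IsLocalization.mk' (Localization.AtPrime 𝔪) s (⟨t, ht'⟩ : 𝔪.primeCompl), ?_⟩
    have h := locMap_mk' (S := S) (𝔪 := 𝔪) s (⟨t, ht'⟩ : 𝔪.primeCompl)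
    have ht0 : (t : L) ≠ 0 := by
      intro h0
      apply ht
      have : t = 0 := Subtype.ext h0
      rw [this]
      exact 𝔪.zero_mem
    exact mul_right_cancel₀ ht0 (h.trans hft.symm)

theorem maximalIdeal_eq_span [𝔪.IsMaximal] (h : LocGen S 𝔪 z) :
    maximalIdeal (Localization.AtPrime 𝔪) =
      Ideal.span {algebraMap S (Localization.AtPrime 𝔪) z} := by
  rw [← Localization.AtPrime.map_eq_maximalIdeal]
  apply le_antisymm
  · rw [Ideal.map_le_iff_le_comap]
    intro s hs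
    obtain ⟨t, s', ht, hst⟩ := h.gen s hs
    rw [Ideal.mem_comap, Ideal.mem_span_singleton]
    have ht' : t ∈ 𝔪.primeCompl := ht
    refine ⟨IsLocalization.mk' (Localization.AtPrime 𝔪) s' (⟨t, ht'⟩ : 𝔪.primeCompl), ?_⟩
    rw [IsLocalization.mul_mk'_eq_mk'_of_mul, IsLocalization.eq_mk'_iff_mul_eq, ← map_mul,
      ← hst]
  · rw [Ideal.span_singleton_le_iff_mem]
    exact Ideal.mem_map_of_mem _ h.mem

theorem valuationRing_localization [IsNoetherianRing S] [𝔪.IsMaximal] (h : LocGen S 𝔪 z) :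
    ValuationRing (Localization.AtPrime 𝔪) := by
  have hle : 𝔪.primeCompl ≤ nonZeroDivisors S := by
    intro t ht
    refine mem_nonZeroDivisors_of_ne_zero ?_
    rintro rfl
    exact ht 𝔪.zero_mem
  haveI : IsDomain (Localization.AtPrime 𝔪) :=
    IsLocalization.isDomain_localization hle
  haveI : IsNoetherianRing (Localization.AtPrime 𝔪) :=
    IsLocalization.isNoetherianRing 𝔪.primeCompl _ inferInstance
  refine ((tfae_of_isNoetherianRing_of_isLocalRing_of_isDomain
    (Localization.AtPrime 𝔪)).out 4 1).1 ?_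
  rw [maximalIdeal_eq_span h]
  exact ⟨⟨_, rfl⟩⟩

variable (S 𝔪 z) in
/-- The localisation `S_𝔪` as a valuation subring of `L`. -/
noncomputable def locVal [IsNoetherianRing S] [𝔪.IsMaximal] (h : LocGen S 𝔪 z)
    (hfrac : IsFracOf S) : ValuationSubring L :=
  { (locMap S 𝔪).range with
    mem_or_inv_mem' := by
      intro f
      haveI := valuationRing_localization h
      obtain ⟨s, t, ht, hft⟩ := hfrac f
      have ht0 : (t : L) ≠ 0 := fun h0 => ht (Subtype.ext h0)
      obtain ⟨c, hc | hc⟩ := ValuationRing.cond (algebraMap S (Localization.AtPrime 𝔪) s)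
        (algebraMap S (Localization.AtPrime 𝔪) t)
      · -- `s * c = t`, so `f⁻¹ = c` (or `f = 0`)
        right
        have h2 := congrArg (locMap S 𝔪) hc
        rw [map_mul, locMap_algebraMap, locMap_algebraMap] at h2
        refine ⟨c, ?_⟩
        by_cases hf : f = 0
        · subst hf
          rw [zero_mul] at hft
          rw [← hft, zero_mul] at h2
          exact absurd h2.symm ht0
        · rw [← hft] at h2
          have h3 : f * (locMap S 𝔪 c) = 1 := by
            have : f * (t : L) * locMap S 𝔪 c = (t : L) * 1 := by rw [h2, mul_one]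
            have h4 : (t : L) * (f * locMap S 𝔪 c) = (t : L) * 1 := by
              rw [← this]; ring
            exact mul_left_cancel₀ ht0 h4
          exact eq_inv_of_mul_eq_one_right h3
      · left
        have h2 := congrArg (locMap S 𝔪) hc
        rw [map_mul, locMap_algebraMap, locMap_algebraMap] at h2
        refine ⟨c, ?_⟩
        rw [← hft] at h2
        have h4 : (t : L) * locMap S 𝔪 c = (t : L) * f := by rw [h2]; ring
        exact mul_left_cancel₀ ht0 h4 }


section Props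

variable [IsNoetherianRing S] [h𝔪 : 𝔪.IsMaximal] (h : LocGen S 𝔪 z) (hfrac : IsFracOf S)

theorem mem_locVal_iff {f : L} :
    f ∈ locVal S 𝔪 z h hfrac ↔ ∃ s t : S, t ∉ 𝔪 ∧ f * (t : L) = (s : L) :=
  mem_range_locMap_iff

theorem coe_mem_locVal (s : S) : (s : L) ∈ locVal S 𝔪 z h hfrac :=
  (mem_locVal_iff h hfrac).2 ⟨s, 1, (Ideal.ne_top_iff_one 𝔪).1 h𝔪.ne_top, by simp⟩

theorem coe_ne_zero_of_notMem {t : S} (ht : t ∉ 𝔪) : (t : L) ≠ 0 := by
  intro h0
  apply ht
  have : t = 0 := Subtype.ext h0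
  rw [this]
  exact 𝔪.zero_mem

/-- Elements `s / t` with `s ∈ 𝔪`, `t ∉ 𝔪` are divisible by `z` in `S_𝔪`. -/
theorem mul_inv_mem_locVal {f : L} {s t : S} (hs : s ∈ 𝔪) (ht : t ∉ 𝔪)
    (hft : f * (t : L) = (s : L)) : f * (z : L)⁻¹ ∈ locVal S 𝔪 z h hfrac := by
  obtain ⟨t', s', ht', hst⟩ := h.gen s hs
  have hz0 : (z : L) ≠ 0 := fun h0 => h.ne_zero (Subtype.ext h0)
  refine (mem_locVal_iff h hfrac).2 ⟨s', t * t', ?_, ?_⟩
  · intro hmem
    rcases h𝔪.isPrime.mem_or_mem hmem with h1 | h1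
    · exact ht h1
    · exact ht' h1
  · have hst' : (s : L) * (t' : L) = (z : L) * (s' : L) := by
      have := congrArg (fun x : S => (x : L)) hst
      simpa using this
    push_cast
    have : f * (z : L)⁻¹ * ((t : L) * (t' : L)) = (f * (t : L)) * (t' : L) * (z : L)⁻¹ := by ring
    rw [this, hft, hst']
    field_simp

theorem isUnif_locVal : IsUnif (locVal S 𝔪 z h hfrac) (z : L) where
  mem := coe_mem_locVal h hfrac z
  inv_not_mem := by
    intro hmem
    obtain ⟨s, t, ht, hst⟩ := (mem_locVal_iff h hfrac).1 hmem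
    have hz0 : (z : L) ≠ 0 := fun h0 => h.ne_zero (Subtype.ext h0)
    apply ht
    have h1 : t = z * s := by
      apply Subtype.ext
      push_cast
      rw [← hst]
      field_simp
    rw [h1]
    exact 𝔪.mul_mem_right _ h.mem
  gen := by
    intro f hf hfinv
    obtain ⟨s, t, ht, hst⟩ := (mem_locVal_iff h hfrac).1 hf
    have hs : s ∈ 𝔪 := by
      by_contra hs
      apply hfinv
      by_cases hf0 : f = 0
      · rw [hf0, inv_zero]
        exact zero_mem _
      · refine (mem_locVal_iff h hfrac).2 ⟨t, s, hs, ?_⟩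
        rw [← hst]
        field_simp
    exact mul_inv_mem_locVal h hfrac hs ht hst

/-- The residue field of `S_𝔪` is `S / 𝔪`. -/
theorem exists_sub_mem_locVal {f : L} (hf : f ∈ locVal S 𝔪 z h hfrac) :
    ∃ g : S, (f - (g : L)) * (z : L)⁻¹ ∈ locVal S 𝔪 z h hfrac := by
  obtain ⟨s, t, ht, hst⟩ := (mem_locVal_iff h hfrac).1 hf
  obtain ⟨t', i, hi, hti⟩ := h𝔪.exists_inv ht
  refine ⟨s * t', ?_⟩
  have ht0 : (t : L) ≠ 0 := coe_ne_zero_of_notMem ht
  have hti' : (t' : L) * (t : L) + (i : L) = 1 := by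
    have := congrArg (fun x : S => (x : L)) hti
    simpa using this
  refine mul_inv_mem_locVal h hfrac (s := s * i) (t := t) (𝔪.mul_mem_left _ hi) ht ?_
  push_cast
  have hi' : (i : L) = 1 - (t' : L) * (t : L) := by rw [← hti']; ring
  rw [hi', ← hst]
  ring

/-- A valuation subring containing `S` with centre `𝔪` is `S_𝔪`. -/
theorem eq_locVal_of_le (V' : ValuationSubring L) (hS : ∀ s : S, (s : L) ∈ V')
    (hc : ∀ s : S, s ∈ 𝔪 → s ≠ 0 → (s : L)⁻¹ ∉ V') : V' = locVal S 𝔪 z h hfrac := by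
  have hz0 : (z : L) ≠ 0 := fun h0 => h.ne_zero (Subtype.ext h0)
  have hunit : ∀ t : S, t ∉ 𝔪 → (t : L)⁻¹ ∈ V' := by
    intro t ht
    obtain ⟨t', i, hi, hti⟩ := h𝔪.exists_inv ht
    have hti' : (t' : L) * (t : L) + (i : L) = 1 := by
      have := congrArg (fun x : S => (x : L)) hti
      simpa using this
    have ht0 : (t : L) ≠ 0 := coe_ne_zero_of_notMem ht
    have hiv : V'.valuation (i : L) < 1 := by
      by_cases hi0 : i = 0
      · rw [hi0]; simp
      · have h1 : V'.valuation (i : L) ≤ 1 := (V'.valuation_le_one_iff _).2 (hS i)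
        rcases lt_or_eq_of_le h1 with h2 | h2
        · exact h2
        · exfalso
          apply hc i hi hi0
          rw [← V'.valuation_le_one_iff, map_inv₀, h2, inv_one]
    have h1 : V'.valuation (1 - (i : L)) = 1 := Valuation.map_one_sub_of_lt _ hiv
    have h2 : (1 - (i : L))⁻¹ ∈ V' := by
      rw [← V'.valuation_le_one_iff, map_inv₀, h1, inv_one]
    have h3 : (t : L)⁻¹ = (t' : L) * (1 - (i : L))⁻¹ := by
      have h4 : (1 - (i : L)) = (t' : L) * (t : L) := by rw [← hti']; ring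
      have h5 : (1 - (i : L)) ≠ 0 := by
        intro h0
        rw [h0] at h1
        simp at h1
      rw [h4] at h5 ⊢
      have ht'0 : (t' : L) ≠ 0 := left_ne_zero_of_mul h5
      field_simp
    rw [h3]
    exact mul_mem (hS t') h2
  apply le_antisymm
  · intro f hf
    by_contra hfV
    have hfinv : f⁻¹ ∈ locVal S 𝔪 z h hfrac :=
      ((locVal S 𝔪 z h hfrac).mem_or_inv_mem f).resolve_left hfV
    have h2 : f⁻¹ * (z : L)⁻¹ ∈ locVal S 𝔪 z h hfrac :=
      (isUnif_locVal h hfrac).gen _ hfinv (by rwa [inv_inv])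
    obtain ⟨s, t, ht, hst⟩ := (mem_locVal_iff h hfrac).1 h2
    have hf0 : f ≠ 0 := by
      rintro rfl
      exact hfV (zero_mem _)
    apply hc z h.mem h.ne_zero
    have h3 : (z : L)⁻¹ = f * ((s : L) * (t : L)⁻¹) := by
      have ht0 : (t : L) ≠ 0 := coe_ne_zero_of_notMem ht
      rw [← hst]
      field_simp
    rw [h3]
    exact mul_mem hf (mul_mem (hS s) (hunit t ht))
  · intro f hf
    obtain ⟨s, t, ht, hst⟩ := (mem_locVal_iff h hfrac).1 hf
    have ht0 : (t : L) ≠ 0 := coe_ne_zero_of_notMem ht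
    have h3 : f = (s : L) * (t : L)⁻¹ := by
      rw [← hst]
      field_simp
    rw [h3]
    exact mul_mem (hS s) (hunit t ht)

theorem inv_mem_locVal_of_notMem {t : S} (ht : t ∉ 𝔪) : (t : L)⁻¹ ∈ locVal S 𝔪 z h hfrac :=
  (mem_locVal_iff h hfrac).2 ⟨1, t, ht, by
    rw [inv_mul_cancel₀ (coe_ne_zero_of_notMem ht)]; simp⟩

theorem mul_inv_mem_locVal_of_mem {s : S} (hs : s ∈ 𝔪) :
    (s : L) * (z : L)⁻¹ ∈ locVal S 𝔪 z h hfrac :=
  mul_inv_mem_locVal h hfrac (s := s) (t := 1) hs ((Ideal.ne_top_iff_one 𝔪).1 h𝔪.ne_top)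
    (by simp)

theorem inv_notMem_locVal_of_mem {s : S} (hs : s ∈ 𝔪) (hs0 : s ≠ 0) :
    (s : L)⁻¹ ∉ locVal S 𝔪 z h hfrac := by
  intro hmem
  have h1 := mul_inv_mem_locVal_of_mem h hfrac hs
  apply (isUnif_locVal h hfrac).inv_not_mem
  have hs0' : (s : L) ≠ 0 := fun h0 => hs0 (Subtype.ext h0)
  have : (z : L)⁻¹ = ((s : L) * (z : L)⁻¹) * (s : L)⁻¹ := by field_simp
  rw [this]
  exact mul_mem h1 hmem

end Props

end LocVal

end Fermat.Agent.S36.H972
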