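import Mathlib
import Fermat.Agent.A2.H48.TwoVal
import Fermat.Agent.S36.H972.LocVal

/-!
# S36 / MOD3 (helper972): the two extensions of a discrete valuation in an "Eisenstein-split"
simple extension

Mathlib-only (+ `H48.IsUnif`).  `O ⊆ K` a discrete valuation ring with uniformiser `ϖ`
(elementwise: `IsUnif O ϖ` + `arch`), `L = K(y)` finite over `K`, `Ψ ∈ O[X]` the minimal
polynomial of `y`, and

  `Ψ = (X - a) (X - c) ^ n + ϖ G`,  `a - c ∈ Oˣ`,  `G(c) ∈ Oˣ`,  `n ≥ 1`.

Then `L` has EXACTLY two valuation subrings over `O`: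

* `V_a` : `y ≡ a`, unramified (`ϖ` is a uniformiser), residue degree `1`;
* `V_c` : `π := y - c` is a uniformiser, `π ^ n = ϖ · unit`, residue degree `1`.

Application (S36, level `q² M'` over level `q M'`): `y = j_{q²}`, `c = j`, `a = j^{q²}`,
`Ψ = Φ_q(j_q, Y) / (Y - j)`, `n = q - 1`: `V_a = V_FF` (Gauss valuation), `V_c = V_mid`.
-/

set_option autoImplicit false
set_option linter.style.haveILetI false
set_option linter.unusedSectionVars false

noncomputable section

namespace Fermat.Agent.S36.H972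

open Fermat.Agent.A2.H48 Polynomial

section DVR

variable {K : Type*} [Field K] {O : ValuationSubring K} {ϖ : K}

theorem mem_or_mul_inv_mem (hO : IsUnif O ϖ) {x : K} (hx : x ∈ O) :
    x⁻¹ ∈ O ∨ x * ϖ⁻¹ ∈ O := by
  by_cases h : x⁻¹ ∈ O
  · exact Or.inl h
  · exact Or.inr (hO.gen x hx h)

/-- Every nonzero element is `ϖ ^ n · unit`. -/
theorem exists_pow_mul_unit (hO : IsUnif O ϖ) (harch : ∀ a : K, ∃ k : ℕ, ϖ ^ k * a ∈ O)
    {x : K} (hx : x ∈ O) (hx0 : x ≠ 0) :
    ∃ (n : ℕ) (u : K), u ∈ O ∧ u⁻¹ ∈ O ∧ x = ϖ ^ n * u := by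
  classical
  have hϖ0 : ϖ ≠ 0 := hO.ne_zero
  have hex : ∃ k : ℕ, ϖ ^ k * x⁻¹ ∈ O := harch x⁻¹
  set n := Nat.find hex with hn
  have hn1 : ϖ ^ n * x⁻¹ ∈ O := Nat.find_spec hex
  refine ⟨n, x * (ϖ ^ n)⁻¹, ?_, ?_, ?_⟩
  · rcases Nat.eq_zero_or_pos n with h0 | hpos
    · rw [h0, pow_zero, inv_one, mul_one]; exact hx
    · have hmin : ¬ ϖ ^ (n - 1) * x⁻¹ ∈ O := Nat.find_min hex (by omega)
      have h1 : (ϖ ^ (n - 1) * x⁻¹)⁻¹ ∈ O := (O.mem_or_inv_mem _).resolve_left hmin
      have h2 := hO.gen _ h1 (by rwa [inv_inv])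
      have h3 : (ϖ ^ (n - 1) * x⁻¹)⁻¹ * ϖ⁻¹ = x * (ϖ ^ n)⁻¹ := by
        have : ϖ ^ n = ϖ ^ (n - 1) * ϖ := by
          rw [← pow_succ]; congr 1; omega
        rw [this]
        field_simp
      rwa [h3] at h2
  · have : (x * (ϖ ^ n)⁻¹)⁻¹ = ϖ ^ n * x⁻¹ := by field_simp
    rw [this]; exact hn1
  · field_simp

theorem isUnit_of_inv_mem {u : O} (hu0 : (u : K) ≠ 0) (hu : (u : K)⁻¹ ∈ O) : IsUnit u := by
  refine IsUnit.of_mul_eq_one ⟨(u : K)⁻¹, hu⟩ ?_
  apply Subtype.ext
  push_cast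
  exact mul_inv_cancel₀ hu0

theorem inv_mem_of_isUnit {u : O} (hu : IsUnit u) : (u : K)⁻¹ ∈ O := by
  obtain ⟨v, hv⟩ := hu.exists_right_inv
  have h1 : (u : K) * (v : K) = 1 := by
    have := congrArg (fun x : O => (x : K)) hv
    simpa using this
  rw [inv_eq_of_mul_eq_one_right h1]
  exact v.2

theorem isDiscreteValuationRing_of_isUnif (hO : IsUnif O ϖ)
    (harch : ∀ a : K, ∃ k : ℕ, ϖ ^ k * a ∈ O) : IsDiscreteValuationRing O := by
  apply IsDiscreteValuationRing.ofHasUnitMulPowIrreducibleFactorization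
  have hϖ0 : ϖ ≠ 0 := hO.ne_zero
  refine ⟨⟨ϖ, hO.mem⟩, ?_, ?_⟩
  · rw [irreducible_iff]
    refine ⟨fun hu => hO.inv_not_mem (inv_mem_of_isUnit hu), ?_⟩
    intro a b hab
    have hab' : ϖ = (a : K) * (b : K) := by
      have := congrArg (fun x : O => (x : K)) hab
      simpa using this
    have ha0 : (a : K) ≠ 0 := by
      intro h0; rw [h0, zero_mul] at hab'; exact hϖ0 hab'
    have hb0 : (b : K) ≠ 0 := by
      intro h0; rw [h0, mul_zero] at hab'; exact hϖ0 hab'
    by_contra hcon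
    rw [not_or] at hcon
    have ha : (a : K)⁻¹ ∉ O := fun h => hcon.1 (isUnit_of_inv_mem ha0 h)
    have hb : (b : K)⁻¹ ∉ O := fun h => hcon.2 (isUnit_of_inv_mem hb0 h)
    have h1 := hO.gen _ a.2 ha
    have h2 := hO.gen _ b.2 hb
    apply hO.inv_not_mem
    have h3 : ϖ⁻¹ = ((a : K) * ϖ⁻¹) * ((b : K) * ϖ⁻¹) := by
      have : ((a : K) * ϖ⁻¹) * ((b : K) * ϖ⁻¹) = ((a : K) * (b : K)) * (ϖ⁻¹ * ϖ⁻¹) := by ring
      rw [this, ← hab']
      field_simp
    rw [h3]
    exact mul_mem h1 h2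
  · intro x hx
    have hx0 : (x : K) ≠ 0 := fun h0 => hx (Subtype.ext h0)
    obtain ⟨n, u, hu, hu', hxu⟩ := exists_pow_mul_unit hO harch x.2 hx0
    have hu0 : u ≠ 0 := by
      rintro rfl
      rw [mul_zero] at hxu
      exact hx0 hxu
    refine ⟨n, ?_⟩
    have hunit : IsUnit (⟨u, hu⟩ : O) := isUnit_of_inv_mem hu0 hu'
    refine ⟨hunit.unit, ?_⟩
    apply Subtype.ext
    rw [IsUnit.unit_spec]
    push_cast
    exact hxu.symm

end DVR

section Core

variable {K L : Type*} [Field K] [Field L] [Algebra K L]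
variable (O : ValuationSubring K) (y : L)

/-- `O → L`. -/
def phi : O →+* L := (algebraMap K L).comp O.subtype

theorem phi_apply (a : O) : phi (L := L) O a = algebraMap K L (a : K) := rfl

theorem phi_injective : Function.Injective (phi (L := L) O) :=
  (algebraMap K L).injective.comp Subtype.val_injective

/-- `S₀ = O[y] ⊆ L`. -/
def adjoinRing : Subring L := (Polynomial.eval₂RingHom (phi O) y).range

/-- `O[X] → O[y]`, `P ↦ P(y)`. -/
def evS : O[X] →+* adjoinRing O y := (Polynomial.eval₂RingHom (phi O) y).rangeRestrict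

theorem coe_evS (P : O[X]) : ((evS O y P : adjoinRing O y) : L) = P.eval₂ (phi O) y := rfl

theorem evS_surjective : Function.Surjective (evS O y) :=
  RingHom.rangeRestrict_surjective _

theorem eval₂_phi_eq_aeval (P : O[X]) :
    P.eval₂ (phi O) y = Polynomial.aeval y (P.map O.subtype) := by
  rw [Polynomial.aeval_def, Polynomial.eval₂_map]
  rfl

variable {O y}

/-- **Presentation** `O[y] = O[X] / (Ψ)`. -/
theorem dvd_of_eval₂_eq_zero {Ψ : O[X]} (hΨ : Ψ.Monic)
    (hmin : minpoly K y = Ψ.map O.subtype) {P : O[X]} (hP : P.eval₂ (phi O) y = 0) :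
    Ψ ∣ P := by
  have hΨy : Ψ.eval₂ (phi O) y = 0 := by
    rw [eval₂_phi_eq_aeval, ← hmin, minpoly.aeval]
  rw [← Polynomial.modByMonic_eq_zero_iff_dvd hΨ]
  by_contra hR
  have hRy : (P %ₘ Ψ).eval₂ (phi O) y = 0 := by
    have h1 := Polynomial.modByMonic_add_div P Ψ
    have h2 : P.eval₂ (phi O) y =
        (P %ₘ Ψ).eval₂ (phi O) y + Ψ.eval₂ (phi O) y * (P /ₘ Ψ).eval₂ (phi O) y := by
      conv_lhs => rw [← h1]
      rw [Polynomial.eval₂_add, Polynomial.eval₂_mul]
    rw [hP, hΨy, zero_mul, add_zero] at h2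
    exact h2.symm
  have hinj : Function.Injective (O.subtype : O →+* K) := Subtype.val_injective
  have hR' : (P %ₘ Ψ).map O.subtype ≠ 0 := by
    intro h0
    apply hR
    exact Polynomial.map_injective _ hinj (by rw [h0, Polynomial.map_zero])
  have hle := minpoly.degree_le_of_ne_zero K y hR' (by rw [← eval₂_phi_eq_aeval]; exact hRy)
  rw [hmin, Polynomial.degree_map_eq_of_injective hinj,
    Polynomial.degree_map_eq_of_injective hinj] at hle
  exact absurd (Polynomial.degree_modByMonic_lt P hΨ) (not_lt.2 hle)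

variable (O y) in
/-- The ideal of `O[y]` of the `P(y)` with `P(r) ∈ ϖ O`. -/
def maxAt (ϖ : K) (r : O) : Ideal (adjoinRing O y) where
  carrier := {s | ∃ P : O[X], evS O y P = s ∧ ((P.eval r : O) : K) * ϖ⁻¹ ∈ O}
  zero_mem' := ⟨0, by simp, by simp⟩
  add_mem' := by
    rintro s₁ s₂ ⟨P₁, h₁, h₁'⟩ ⟨P₂, h₂, h₂'⟩
    refine ⟨P₁ + P₂, by rw [map_add, h₁, h₂], ?_⟩
    rw [Polynomial.eval_add]
    push_cast
    rw [add_mul]
    exact add_mem h₁' h₂'
  smul_mem' := by
    rintro c s ⟨P, h, h'⟩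
    obtain ⟨Q, rfl⟩ := evS_surjective O y c
    refine ⟨Q * P, by rw [map_mul, h, smul_eq_mul], ?_⟩
    rw [Polynomial.eval_mul]
    push_cast
    rw [mul_assoc]
    exact mul_mem (Q.eval r).2 h'

theorem evS_mem_maxAt_of {ϖ : K} {r : O} {P : O[X]} (h : ((P.eval r : O) : K) * ϖ⁻¹ ∈ O) :
    evS O y P ∈ maxAt O y ϖ r :=
  ⟨P, rfl, h⟩

theorem evS_mem_maxAt_iff {ϖ : K} {r : O} {Ψ : O[X]} (hΨ : Ψ.Monic)
    (hmin : minpoly K y = Ψ.map O.subtype) (hr : ((Ψ.eval r : O) : K) * ϖ⁻¹ ∈ O) (P : O[X]) :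
    evS O y P ∈ maxAt O y ϖ r ↔ ((P.eval r : O) : K) * ϖ⁻¹ ∈ O := by
  constructor
  · rintro ⟨P', hP', h'⟩
    have h0 : (P - P').eval₂ (phi O) y = 0 := by
      have := congrArg (fun s : adjoinRing O y => (s : L)) hP'
      simp only [coe_evS] at this
      rw [Polynomial.eval₂_sub, this, sub_self]
    obtain ⟨Q, hQ⟩ := dvd_of_eval₂_eq_zero hΨ hmin h0
    have h1 : P.eval r = P'.eval r + Ψ.eval r * Q.eval r := by
      have := congrArg (Polynomial.eval r) hQ
      rw [Polynomial.eval_sub, Polynomial.eval_mul] at this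
      rw [← this]; ring
    rw [h1]
    push_cast
    have : ((P'.eval r : O) : K) + ((Ψ.eval r : O) : K) * ((Q.eval r : O) : K) =
        ((P'.eval r : O) : K) + ((Ψ.eval r : O) : K) * ((Q.eval r : O) : K) := rfl
    rw [add_mul]
    refine add_mem h' ?_
    have : ((Ψ.eval r : O) : K) * ((Q.eval r : O) : K) * ϖ⁻¹ =
        (((Ψ.eval r : O) : K) * ϖ⁻¹) * ((Q.eval r : O) : K) := by ring
    rw [this]
    exact mul_mem hr (Q.eval r).2
  · exact evS_mem_maxAt_of

theorem isMaximal_maxAt {ϖ : K} (hO : IsUnif O ϖ) {r : O} {Ψ : O[X]} (hΨ : Ψ.Monic)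
    (hmin : minpoly K y = Ψ.map O.subtype) (hr : ((Ψ.eval r : O) : K) * ϖ⁻¹ ∈ O) :
    (maxAt O y ϖ r).IsMaximal := by
  rw [Ideal.isMaximal_iff]
  constructor
  · intro h1
    have h2 : evS O y 1 ∈ maxAt O y ϖ r := by rwa [map_one]
    rw [evS_mem_maxAt_iff hΨ hmin hr] at h2
    apply hO.inv_not_mem
    simpa using h2
  · intro J x hIJ hxI hxJ
    obtain ⟨P, rfl⟩ := evS_surjective O y x
    have hPr : ¬ ((P.eval r : O) : K) * ϖ⁻¹ ∈ O := fun h => hxI (evS_mem_maxAt_of h)
    have hu : ((P.eval r : O) : K)⁻¹ ∈ O :=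
      (mem_or_mul_inv_mem hO (P.eval r).2).resolve_right hPr
    have hu0 : ((P.eval r : O) : K) ≠ 0 := by
      intro h0
      apply hPr
      rw [h0, zero_mul]
      exact zero_mem _
    set v : O := ⟨((P.eval r : O) : K)⁻¹, hu⟩ with hv
    have hvu : v * P.eval r = 1 := by
      apply Subtype.ext
      push_cast
      exact inv_mul_cancel₀ hu0
    have h3 : evS O y (Polynomial.C v * (P - Polynomial.C (P.eval r))) ∈ maxAt O y ϖ r := by
      apply evS_mem_maxAt_of
      simp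
    have h4 : (1 : adjoinRing O y) =
        evS O y (Polynomial.C v) * evS O y P -
          evS O y (Polynomial.C v * (P - Polynomial.C (P.eval r))) := by
      rw [← map_mul, ← map_sub]
      have : Polynomial.C v * P - Polynomial.C v * (P - Polynomial.C (P.eval r)) = 1 := by
        rw [mul_sub, sub_sub_cancel, ← Polynomial.C_mul, hvu, Polynomial.C_1]
      rw [this, map_one]
    rw [h4]
    exact J.sub_mem (J.mul_mem_left _ hxJ) (hIJ h3)


theorem coe_evS_C (k : O) :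
    ((evS O y (Polynomial.C k) : adjoinRing O y) : L) = algebraMap K L (k : K) := by
  rw [coe_evS, Polynomial.eval₂_C]; rfl

theorem coe_evS_X_sub_C (r : O) :
    ((evS O y (Polynomial.X - Polynomial.C r) : adjoinRing O y) : L) =
      y - algebraMap K L (r : K) := by
  rw [coe_evS, Polynomial.eval₂_sub, Polynomial.eval₂_X, Polynomial.eval₂_C]; rfl

theorem evS_C_mem_maxAt {ϖ : K} (hO : IsUnif O ϖ) (r : O) (k : O) :
    evS O y (Polynomial.C (⟨ϖ, hO.mem⟩ * k)) ∈ maxAt O y ϖ r := by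
  apply evS_mem_maxAt_of
  rw [Polynomial.eval_C]
  push_cast
  have : ϖ * (k : K) * ϖ⁻¹ = (k : K) := by
    have := hO.ne_zero
    field_simp
  rw [this]
  exact k.2

theorem evS_X_sub_C_mem_maxAt {ϖ : K} (r : O) :
    evS O y (Polynomial.X - Polynomial.C r) ∈ maxAt O y ϖ r := by
  apply evS_mem_maxAt_of
  simp

theorem exists_decomp_of_mem_maxAt {ϖ : K} (hO : IsUnif O ϖ) {r : O} {s : adjoinRing O y}
    (hs : s ∈ maxAt O y ϖ r) :
    ∃ s₁ s₂ : adjoinRing O y,
      s = evS O y (Polynomial.C ⟨ϖ, hO.mem⟩) * s₁ +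
        evS O y (Polynomial.X - Polynomial.C r) * s₂ := by
  obtain ⟨P, rfl, hP⟩ := hs
  obtain ⟨P₁, hP₁⟩ := Polynomial.X_sub_C_dvd_sub_C_eval (a := r) (p := P)
  have hϖ0 : ϖ ≠ 0 := hO.ne_zero
  have h1 : P.eval r = ⟨ϖ, hO.mem⟩ * ⟨((P.eval r : O) : K) * ϖ⁻¹, hP⟩ := by
    apply Subtype.ext
    push_cast
    field_simp
  refine ⟨evS O y (Polynomial.C ⟨((P.eval r : O) : K) * ϖ⁻¹, hP⟩), evS O y P₁, ?_⟩
  have h2 : P = Polynomial.C ⟨ϖ, hO.mem⟩ * Polynomial.C ⟨((P.eval r : O) : K) * ϖ⁻¹, hP⟩ +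
      (Polynomial.X - Polynomial.C r) * P₁ := by
    rw [← hP₁, ← Polynomial.C_mul, ← h1]
    ring
  conv_lhs => rw [h2]
  rw [map_add, map_mul, map_mul]

end Core

section Main

variable {K L : Type*} [Field K] [Field L] [Algebra K L]
variable {O : ValuationSubring K} {y : L} {ϖ : K}

/-- Clearing denominators. -/
theorem exists_pow_mul_coeff_mem (harch : ∀ a : K, ∃ k : ℕ, ϖ ^ k * a ∈ O) (hO : IsUnif O ϖ)
    (p : K[X]) : ∃ k : ℕ, ∀ i, ϖ ^ k * p.coeff i ∈ O := by
  classical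
  choose kk hkk using harch
  refine ⟨p.support.sup fun i => kk (p.coeff i), fun i => ?_⟩
  by_cases hi : i ∈ p.support
  · have hle : kk (p.coeff i) ≤ p.support.sup fun i => kk (p.coeff i) :=
      Finset.le_sup (f := fun i => kk (p.coeff i)) hi
    obtain ⟨d, hd⟩ := Nat.exists_eq_add_of_le hle
    rw [hd, pow_add, mul_assoc, mul_comm (ϖ ^ d), ← mul_assoc]
    exact mul_mem (hkk _) (pow_mem hO.mem d)
  · rw [Polynomial.notMem_support_iff.1 hi, mul_zero]
    exact zero_mem _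

theorem isFracOf_adjoinRing (hO : IsUnif O ϖ) (harch : ∀ a : K, ∃ k : ℕ, ϖ ^ k * a ∈ O)
    (hgen : ∀ f : L, ∃ P : K[X], Polynomial.aeval y P = f) : IsFracOf (adjoinRing O y) := by
  intro f
  obtain ⟨p, rfl⟩ := hgen f
  obtain ⟨k, hk⟩ := exists_pow_mul_coeff_mem harch hO p
  have hlift : Polynomial.C (ϖ ^ k) * p ∈ Polynomial.lifts (O.subtype : O →+* K) := by
    rw [Polynomial.lifts_iff_coeff_lifts]
    intro i
    rw [Polynomial.coeff_C_mul]
    exact ⟨⟨_, hk i⟩, rfl⟩
  obtain ⟨P, hP⟩ := (Polynomial.mem_lifts _).1 hlift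
  refine ⟨evS O y P, evS O y (Polynomial.C (⟨ϖ, hO.mem⟩ ^ k)), ?_, ?_⟩
  · intro h0
    have h1 : algebraMap K L (ϖ ^ k) = 0 := by
      have h2 := congrArg (fun s : adjoinRing O y => (s : L)) h0
      simp only [coe_evS_C] at h2
      simpa using h2
    exact (map_ne_zero (algebraMap K L)).2 (pow_ne_zero k hO.ne_zero) h1
  · rw [coe_evS_C, coe_evS, eval₂_phi_eq_aeval, hP, map_mul, Polynomial.aeval_C]
    push_cast
    ring


/-- Hypotheses of the Eisenstein-split theorem. -/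
structure EisData (O : ValuationSubring K) (ϖ : K) (y : L) (Ψ G : O[X]) (a c : O) (n : ℕ) :
    Prop where
  unif : IsUnif O ϖ
  arch : ∀ a : K, ∃ k : ℕ, ϖ ^ k * a ∈ O
  monic : Ψ.Monic
  minpoly_eq : minpoly K y = Ψ.map O.subtype
  gen : ∀ f : L, ∃ P : K[X], Polynomial.aeval y P = f
  pos : 1 ≤ n
  dec : Ψ = (Polynomial.X - Polynomial.C a) * (Polynomial.X - Polynomial.C c) ^ n +
    Polynomial.C ⟨ϖ, unif.mem⟩ * G
  unit_sub : IsUnit (a - c)
  unit_G : IsUnit (G.eval c)

namespace EisData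

variable {Ψ G : O[X]} {a c : O} {n : ℕ} (h : EisData O ϖ y Ψ G a c n)

/-- The uniformiser of `O` as an element of `O`. -/
abbrev pi₀ : O := ⟨ϖ, h.unif.mem⟩

include h

theorem isNoetherianRing : IsNoetherianRing (adjoinRing O y) := by
  haveI := isDiscreteValuationRing_of_isUnif h.unif h.arch
  exact isNoetherianRing_of_surjective O[X] _ (evS O y) (evS_surjective O y)

theorem eval_a : Ψ.eval a = h.pi₀ * G.eval a := by
  conv_lhs => rw [h.dec]
  simp

theorem eval_c : Ψ.eval c = h.pi₀ * G.eval c := by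
  conv_lhs => rw [h.dec]
  have hn : n ≠ 0 := by have := h.pos; omega
  simp [hn]

theorem eval_a_mem : ((Ψ.eval a : O) : K) * ϖ⁻¹ ∈ O := by
  rw [h.eval_a]
  push_cast
  have : ϖ * ((G.eval a : O) : K) * ϖ⁻¹ = ((G.eval a : O) : K) := by
    have := h.unif.ne_zero
    field_simp
  rw [this]
  exact (G.eval a).2

theorem eval_c_mem : ((Ψ.eval c : O) : K) * ϖ⁻¹ ∈ O := by
  rw [h.eval_c]
  push_cast
  have : ϖ * ((G.eval c : O) : K) * ϖ⁻¹ = ((G.eval c : O) : K) := by
    have := h.unif.ne_zero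
    field_simp
  rw [this]
  exact (G.eval c).2

theorem isMaximal_a : (maxAt O y ϖ a).IsMaximal :=
  isMaximal_maxAt h.unif h.monic h.minpoly_eq h.eval_a_mem

theorem isMaximal_c : (maxAt O y ϖ c).IsMaximal :=
  isMaximal_maxAt h.unif h.monic h.minpoly_eq h.eval_c_mem

theorem notMem_of_isUnit {r : O} (hr : ((Ψ.eval r : O) : K) * ϖ⁻¹ ∈ O) {P : O[X]}
    (hP : IsUnit (P.eval r)) : evS O y P ∉ maxAt O y ϖ r := by
  rw [evS_mem_maxAt_iff h.monic h.minpoly_eq hr]
  intro hmem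
  apply h.unif.inv_not_mem
  have hu := inv_mem_of_isUnit hP
  have hu0 : ((P.eval r : O) : K) ≠ 0 := by
    intro h0
    exact hP.ne_zero (Subtype.ext h0)
  have : ϖ⁻¹ = (((P.eval r : O) : K) * ϖ⁻¹) * ((P.eval r : O) : K)⁻¹ := by field_simp
  rw [this]
  exact mul_mem hmem hu

theorem rel : evS O y (Polynomial.X - Polynomial.C a) * evS O y (Polynomial.X - Polynomial.C c) ^ n +
    evS O y (Polynomial.C h.pi₀) * evS O y G = 0 := by
  have h0 : evS O y Ψ = 0 := by
    apply Subtype.ext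
    rw [coe_evS, eval₂_phi_eq_aeval, ← h.minpoly_eq, minpoly.aeval]
    rfl
  have h1 := h0
  rw [h.dec, map_add, map_mul, map_mul, map_pow] at h1
  exact h1

theorem G_notMem : evS O y G ∉ maxAt O y ϖ c :=
  h.notMem_of_isUnit h.eval_c_mem h.unit_G

theorem alpha_notMem : evS O y (Polynomial.X - Polynomial.C a) ∉ maxAt O y ϖ c := by
  apply h.notMem_of_isUnit h.eval_c_mem
  rw [Polynomial.eval_sub, Polynomial.eval_X, Polynomial.eval_C]
  have : c - a = -(a - c) := by ring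
  rw [this]
  exact h.unit_sub.neg

theorem pi_notMem : evS O y (Polynomial.X - Polynomial.C c) ∉ maxAt O y ϖ a := by
  apply h.notMem_of_isUnit h.eval_a_mem
  rw [Polynomial.eval_sub, Polynomial.eval_X, Polynomial.eval_C]
  exact h.unit_sub

theorem pi_pow_notMem : evS O y (Polynomial.X - Polynomial.C c) ^ n ∉ maxAt O y ϖ a := by
  intro hmem
  haveI := h.isMaximal_a
  exact h.pi_notMem (Ideal.IsPrime.mem_of_pow_mem inferInstance n hmem)

theorem evS_pi₀_ne_zero : evS O y (Polynomial.C h.pi₀) ≠ 0 := by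
  intro h0
  have h1 := congrArg (fun s : adjoinRing O y => (s : L)) h0
  simp only [coe_evS_C] at h1
  exact (map_ne_zero (algebraMap K L)).2 h.unif.ne_zero (by simpa using h1)

theorem evS_pi₀_mem (r : O) : evS O y (Polynomial.C h.pi₀) ∈ maxAt O y ϖ r := by
  have := evS_C_mem_maxAt (y := y) h.unif r 1
  rwa [mul_one] at this

/-- `𝔪_a O[y]_{𝔪_a} = ϖ O[y]_{𝔪_a}`. -/
theorem locGen_a : LocGen (adjoinRing O y) (maxAt O y ϖ a) (evS O y (Polynomial.C h.pi₀)) where
  mem := h.evS_pi₀_mem a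
  ne_zero := h.evS_pi₀_ne_zero
  gen := by
    intro s hs
    obtain ⟨s₁, s₂, rfl⟩ := exists_decomp_of_mem_maxAt h.unif hs
    refine ⟨evS O y (Polynomial.X - Polynomial.C c) ^ n,
      evS O y (Polynomial.X - Polynomial.C c) ^ n * s₁ - evS O y G * s₂, h.pi_pow_notMem, ?_⟩
    have hrel := h.rel
    have h2 : evS O y (Polynomial.X - Polynomial.C a) *
        evS O y (Polynomial.X - Polynomial.C c) ^ n =
        - (evS O y (Polynomial.C h.pi₀) * evS O y G) := eq_neg_of_add_eq_zero_left hrel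
    calc (evS O y (Polynomial.C h.pi₀) * s₁ + evS O y (Polynomial.X - Polynomial.C a) * s₂) *
          evS O y (Polynomial.X - Polynomial.C c) ^ n
        = evS O y (Polynomial.C h.pi₀) * s₁ * evS O y (Polynomial.X - Polynomial.C c) ^ n +
          (evS O y (Polynomial.X - Polynomial.C a) *
            evS O y (Polynomial.X - Polynomial.C c) ^ n) * s₂ := by ring
      _ = evS O y (Polynomial.C h.pi₀) *
          (evS O y (Polynomial.X - Polynomial.C c) ^ n * s₁ - evS O y G * s₂) := by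
        rw [h2]; ring

theorem evS_pi_ne_zero : evS O y (Polynomial.X - Polynomial.C c) ≠ 0 := by
  intro h0
  have hrel := h.rel
  rw [h0, zero_pow (by have := h.pos; omega), mul_zero, zero_add] at hrel
  rcases mul_eq_zero.1 hrel with h1 | h1
  · exact h.evS_pi₀_ne_zero h1
  · apply h.G_notMem
    rw [h1]
    exact (maxAt O y ϖ c).zero_mem

/-- `𝔪_c O[y]_{𝔪_c} = (y - c) O[y]_{𝔪_c}`. -/
theorem locGen_c :
    LocGen (adjoinRing O y) (maxAt O y ϖ c) (evS O y (Polynomial.X - Polynomial.C c)) where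
  mem := evS_X_sub_C_mem_maxAt c
  ne_zero := h.evS_pi_ne_zero
  gen := by
    intro s hs
    obtain ⟨s₁, s₂, rfl⟩ := exists_decomp_of_mem_maxAt h.unif hs
    obtain ⟨m, hm⟩ : ∃ m, n = m + 1 := ⟨n - 1, by have := h.pos; omega⟩
    refine ⟨evS O y G, evS O y G * s₂ - evS O y (Polynomial.X - Polynomial.C a) *
      evS O y (Polynomial.X - Polynomial.C c) ^ m * s₁, h.G_notMem, ?_⟩
    have hrel := h.rel
    have h2 : evS O y (Polynomial.C h.pi₀) * evS O y G =
        - (evS O y (Polynomial.X - Polynomial.C a) *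
          evS O y (Polynomial.X - Polynomial.C c) ^ n) := eq_neg_of_add_eq_zero_right hrel
    calc (evS O y (Polynomial.C h.pi₀) * s₁ + evS O y (Polynomial.X - Polynomial.C c) * s₂) *
          evS O y G
        = (evS O y (Polynomial.C h.pi₀) * evS O y G) * s₁ +
          evS O y (Polynomial.X - Polynomial.C c) * s₂ * evS O y G := by ring
      _ = evS O y (Polynomial.X - Polynomial.C c) *
          (evS O y G * s₂ - evS O y (Polynomial.X - Polynomial.C a) *
            evS O y (Polynomial.X - Polynomial.C c) ^ m * s₁) := by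
        rw [h2, hm, pow_succ]; ring

theorem isFracOf : IsFracOf (adjoinRing O y) := isFracOf_adjoinRing h.unif h.arch h.gen

/-- The unramified extension `V_a` (`y ≡ a`). -/
def Va : ValuationSubring L :=
  @locVal L _ (adjoinRing O y) (maxAt O y ϖ a) (evS O y (Polynomial.C h.pi₀))
    h.isNoetherianRing h.isMaximal_a h.locGen_a h.isFracOf

/-- The ramified extension `V_c` (`y ≡ c`, uniformiser `y - c`). -/
def Vc : ValuationSubring L :=
  @locVal L _ (adjoinRing O y) (maxAt O y ϖ c) (evS O y (Polynomial.X - Polynomial.C c))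
    h.isNoetherianRing h.isMaximal_c h.locGen_c h.isFracOf


/-! ### Properties of `V_a` and `V_c` -/

theorem coe_pi₀ : ((evS O y (Polynomial.C h.pi₀) : adjoinRing O y) : L) = algebraMap K L ϖ :=
  coe_evS_C _

theorem mem_Va_iff {f : L} :
    f ∈ h.Va ↔ ∃ s t : adjoinRing O y, t ∉ maxAt O y ϖ a ∧ f * (t : L) = (s : L) :=
  @mem_locVal_iff L _ _ _ _ h.isNoetherianRing h.isMaximal_a h.locGen_a h.isFracOf f

theorem mem_Vc_iff {f : L} :
    f ∈ h.Vc ↔ ∃ s t : adjoinRing O y, t ∉ maxAt O y ϖ c ∧ f * (t : L) = (s : L) :=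
  @mem_locVal_iff L _ _ _ _ h.isNoetherianRing h.isMaximal_c h.locGen_c h.isFracOf f

theorem isUnif_Va : IsUnif h.Va (algebraMap K L ϖ) := by
  have := @isUnif_locVal L _ _ _ _ h.isNoetherianRing h.isMaximal_a h.locGen_a h.isFracOf
  rwa [h.coe_pi₀] at this

theorem isUnif_Vc : IsUnif h.Vc (y - algebraMap K L (c : K)) := by
  have := @isUnif_locVal L _ _ _ _ h.isNoetherianRing h.isMaximal_c h.locGen_c h.isFracOf
  rwa [coe_evS_X_sub_C] at this

theorem coe_mem_Va (s : adjoinRing O y) : (s : L) ∈ h.Va :=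
  @coe_mem_locVal L _ _ _ _ h.isNoetherianRing h.isMaximal_a h.locGen_a h.isFracOf s

theorem coe_mem_Vc (s : adjoinRing O y) : (s : L) ∈ h.Vc :=
  @coe_mem_locVal L _ _ _ _ h.isNoetherianRing h.isMaximal_c h.locGen_c h.isFracOf s

theorem y_mem_Va : y ∈ h.Va := by
  have := h.coe_mem_Va (evS O y Polynomial.X)
  rwa [coe_evS, Polynomial.eval₂_X] at this

theorem y_mem_Vc : y ∈ h.Vc := by
  have := h.coe_mem_Vc (evS O y Polynomial.X)
  rwa [coe_evS, Polynomial.eval₂_X] at this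

/-- `y ≡ a` modulo `ϖ V_a`. -/
theorem sub_a_mem : (y - algebraMap K L (a : K)) * (algebraMap K L ϖ)⁻¹ ∈ h.Va := by
  have := @mul_inv_mem_locVal_of_mem L _ _ _ _ h.isNoetherianRing h.isMaximal_a h.locGen_a
    h.isFracOf _ (evS_X_sub_C_mem_maxAt (y := y) (ϖ := ϖ) a)
  rwa [coe_evS_X_sub_C, h.coe_pi₀] at this

/-- `(y - c) ^ n = ϖ · unit` in `V_c`. -/
theorem exists_unit_Vc :
    ∃ u : L, u ∈ h.Vc ∧ u⁻¹ ∈ h.Vc ∧ (y - algebraMap K L (c : K)) ^ n = algebraMap K L ϖ * u := by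
  have hα := @inv_mem_locVal_of_notMem L _ _ _ _ h.isNoetherianRing h.isMaximal_c h.locGen_c
    h.isFracOf _ h.alpha_notMem
  have hG := @inv_mem_locVal_of_notMem L _ _ _ _ h.isNoetherianRing h.isMaximal_c h.locGen_c
    h.isFracOf _ h.G_notMem
  have hα0 : ((evS O y (Polynomial.X - Polynomial.C a) : adjoinRing O y) : L) ≠ 0 :=
    @coe_ne_zero_of_notMem L _ _ _ h.isNoetherianRing h.isMaximal_c _ h.alpha_notMem
  have hG0 : ((evS O y G : adjoinRing O y) : L) ≠ 0 :=
    @coe_ne_zero_of_notMem L _ _ _ h.isNoetherianRing h.isMaximal_c _ h.G_notMem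
  have hrel := congrArg (fun s : adjoinRing O y => (s : L)) h.rel
  simp only [Subring.coe_add, Subring.coe_mul, Subring.coe_pow, Subring.coe_zero] at hrel
  rw [h.coe_pi₀, coe_evS_X_sub_C c] at hrel
  refine ⟨-((evS O y G : adjoinRing O y) : L) *
    ((evS O y (Polynomial.X - Polynomial.C a) : adjoinRing O y) : L)⁻¹, ?_, ?_, ?_⟩
  · exact mul_mem (neg_mem (h.coe_mem_Vc _)) hα
  · have : (-((evS O y G : adjoinRing O y) : L) *
        ((evS O y (Polynomial.X - Polynomial.C a) : adjoinRing O y) : L)⁻¹)⁻¹ =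
        -((evS O y (Polynomial.X - Polynomial.C a) : adjoinRing O y) : L) *
          ((evS O y G : adjoinRing O y) : L)⁻¹ := by
      field_simp
    rw [this]
    exact mul_mem (neg_mem (h.coe_mem_Vc _)) hG
  · have h2 : (y - algebraMap K L (c : K)) ^ n *
        ((evS O y (Polynomial.X - Polynomial.C a) : adjoinRing O y) : L) =
        -(algebraMap K L ϖ * ((evS O y G : adjoinRing O y) : L)) := by
      rw [eq_neg_iff_add_eq_zero, ← hrel]; ring
    field_simp
    rw [h2]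

theorem algebraMap_mem_locVal_iff {r : O} {z : adjoinRing O y}
    (hm : (maxAt O y ϖ r).IsMaximal) (hz : LocGen (adjoinRing O y) (maxAt O y ϖ r) z) (k : K) :
    algebraMap K L k ∈ @locVal L _ (adjoinRing O y) (maxAt O y ϖ r) z h.isNoetherianRing hm hz
      h.isFracOf ↔ k ∈ O := by
  constructor
  · intro hk
    by_contra hkO
    have hk0 : k ≠ 0 := by
      rintro rfl
      exact hkO (zero_mem _)
    have h1 : k⁻¹ ∈ O := (O.mem_or_inv_mem k).resolve_left hkO
    have h2 : k⁻¹ * ϖ⁻¹ ∈ O := h.unif.gen _ h1 (by rwa [inv_inv])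
    have h3 : evS O y (Polynomial.C (h.pi₀ * ⟨k⁻¹ * ϖ⁻¹, h2⟩)) ∈ maxAt O y ϖ r :=
      evS_C_mem_maxAt h.unif r _
    have h4 : ((evS O y (Polynomial.C (h.pi₀ * ⟨k⁻¹ * ϖ⁻¹, h2⟩)) : adjoinRing O y) : L) =
        (algebraMap K L k)⁻¹ := by
      rw [coe_evS_C, ← map_inv₀]
      congr 1
      push_cast
      have := h.unif.ne_zero
      field_simp
    have h5 : evS O y (Polynomial.C (h.pi₀ * ⟨k⁻¹ * ϖ⁻¹, h2⟩)) ≠ 0 := by
      intro h0
      rw [h0] at h4
      have : (algebraMap K L k)⁻¹ = 0 := by rw [← h4]; rfl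
      rw [inv_eq_zero] at this
      exact (map_ne_zero (algebraMap K L)).2 hk0 this
    have h6 := @inv_notMem_locVal_of_mem L _ _ _ _ h.isNoetherianRing hm hz h.isFracOf _ h3 h5
    rw [h4, inv_inv] at h6
    exact h6 hk
  · intro hk
    have := @coe_mem_locVal L _ _ _ _ h.isNoetherianRing hm hz h.isFracOf
      (evS O y (Polynomial.C ⟨k, hk⟩))
    rwa [coe_evS_C] at this

theorem algebraMap_mem_Va_iff (k : K) : algebraMap K L k ∈ h.Va ↔ k ∈ O :=
  h.algebraMap_mem_locVal_iff h.isMaximal_a h.locGen_a k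

theorem algebraMap_mem_Vc_iff (k : K) : algebraMap K L k ∈ h.Vc ↔ k ∈ O :=
  h.algebraMap_mem_locVal_iff h.isMaximal_c h.locGen_c k

theorem residue_locVal {r : O} {z : adjoinRing O y}
    (hm : (maxAt O y ϖ r).IsMaximal) (hz : LocGen (adjoinRing O y) (maxAt O y ϖ r) z)
    {f : L} (hf : f ∈ @locVal L _ (adjoinRing O y) (maxAt O y ϖ r) z h.isNoetherianRing hm hz
      h.isFracOf) :
    ∃ g ∈ O, (f - algebraMap K L g) * (z : L)⁻¹ ∈
      @locVal L _ (adjoinRing O y) (maxAt O y ϖ r) z h.isNoetherianRing hm hz h.isFracOf := by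
  obtain ⟨s, hs⟩ := @exists_sub_mem_locVal L _ _ _ _ h.isNoetherianRing hm hz h.isFracOf f hf
  obtain ⟨P, rfl⟩ := evS_surjective O y s
  refine ⟨(P.eval r : O), (P.eval r).2, ?_⟩
  have h1 : evS O y (P - Polynomial.C (P.eval r)) ∈ maxAt O y ϖ r := by
    apply evS_mem_maxAt_of
    simp
  have h2 := @mul_inv_mem_locVal_of_mem L _ _ _ _ h.isNoetherianRing hm hz h.isFracOf _ h1
  have h3 : ((evS O y (P - Polynomial.C (P.eval r)) : adjoinRing O y) : L) =
      ((evS O y P : adjoinRing O y) : L) - algebraMap K L ((P.eval r : O) : K) := by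
    rw [map_sub, AddSubgroupClass.coe_sub, coe_evS_C]
  rw [h3] at h2
  have h4 : (f - algebraMap K L ((P.eval r : O) : K)) * (z : L)⁻¹ =
      (f - ((evS O y P : adjoinRing O y) : L)) * (z : L)⁻¹ +
        (((evS O y P : adjoinRing O y) : L) - algebraMap K L ((P.eval r : O) : K)) * (z : L)⁻¹ := by
    ring
  rw [h4]
  exact add_mem hs h2

/-- Residue degree one at `V_a`. -/
theorem residue_Va {f : L} (hf : f ∈ h.Va) :
    ∃ g ∈ O, (f - algebraMap K L g) * (algebraMap K L ϖ)⁻¹ ∈ h.Va := by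
  have := h.residue_locVal h.isMaximal_a h.locGen_a hf
  rwa [h.coe_pi₀] at this

/-- Residue degree one at `V_c`. -/
theorem residue_Vc {f : L} (hf : f ∈ h.Vc) :
    ∃ g ∈ O, (f - algebraMap K L g) * (y - algebraMap K L (c : K))⁻¹ ∈ h.Vc := by
  have := h.residue_locVal h.isMaximal_c h.locGen_c hf
  rwa [coe_evS_X_sub_C] at this

theorem Va_ne_Vc : h.Va ≠ h.Vc := by
  intro heq
  have h1 := h.isUnif_Vc.inv_not_mem
  have h2 := @inv_mem_locVal_of_notMem L _ _ _ _ h.isNoetherianRing h.isMaximal_a h.locGen_a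
    h.isFracOf _ h.pi_notMem
  rw [coe_evS_X_sub_C] at h2
  apply h1
  rw [← heq]
  exact h2


omit h in
theorem val_lt_one_of_inv_notMem {V' : ValuationSubring L} {x : L} (hx : x ∈ V')
    (hx' : x⁻¹ ∉ V') : V'.valuation x < 1 := by
  have h1 : V'.valuation x ≤ 1 := (V'.valuation_le_one_iff x).2 hx
  rcases lt_or_eq_of_le h1 with h2 | h2
  · exact h2
  · exfalso
    apply hx'
    rw [← V'.valuation_le_one_iff, map_inv₀, h2, inv_one]

omit h in
theorem inv_notMem_of_val_lt_one {V' : ValuationSubring L} {x : L} (hx0 : x ≠ 0)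
    (hx : V'.valuation x < 1) : x⁻¹ ∉ V' := by
  intro hmem
  have h1 : V'.valuation x⁻¹ ≤ 1 := (V'.valuation_le_one_iff _).2 hmem
  rw [map_inv₀] at h1
  have h2 : V'.valuation x ≠ 0 := (Valuation.ne_zero_iff _).2 hx0
  have h3 : 1 ≤ V'.valuation x := by
    rwa [inv_le_one₀ (zero_lt_iff.2 h2)] at h1
  exact absurd hx (not_lt.2 h3)

theorem y_mem_of_le (V' : ValuationSubring L)
    (hV' : ∀ k : K, algebraMap K L k ∈ V' ↔ k ∈ O) : y ∈ V' := by
  let ψ : O →+* V' := (phi O).codRestrict V' (fun a => (hV' _).2 a.2)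
  have hint : IsIntegral V' y := by
    refine ⟨Ψ.map ψ, h.monic.map ψ, ?_⟩
    rw [Polynomial.eval₂_map]
    have hcomp : (algebraMap V' L).comp ψ = phi O := by
      ext a
      rfl
    rw [hcomp, eval₂_phi_eq_aeval, ← h.minpoly_eq, minpoly.aeval]
  obtain ⟨z, hz⟩ := IsIntegrallyClosed.isIntegral_iff.1 hint
  rw [← hz]
  exact z.2

theorem coe_mem_of_le (V' : ValuationSubring L)
    (hV' : ∀ k : K, algebraMap K L k ∈ V' ↔ k ∈ O) (s : adjoinRing O y) : (s : L) ∈ V' := by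
  have hy := h.y_mem_of_le V' hV'
  obtain ⟨P, rfl⟩ := evS_surjective O y s
  rw [coe_evS]
  induction P using Polynomial.induction_on' with
  | add p q hp hq =>
    rw [Polynomial.eval₂_add]
    exact add_mem hp hq
  | monomial n a =>
    rw [Polynomial.eval₂_monomial]
    exact mul_mem ((hV' _).2 a.2) (pow_mem hy n)

/-- **Uniqueness**: `V_a` and `V_c` are the only valuation subrings of `L` over `O`. -/
theorem eq_Va_or_eq_Vc (V' : ValuationSubring L)
    (hV' : ∀ k : K, algebraMap K L k ∈ V' ↔ k ∈ O) : V' = h.Va ∨ V' = h.Vc := by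
  have hS := h.coe_mem_of_le V' hV'
  have hϖ : V'.valuation (algebraMap K L ϖ) < 1 := by
    apply val_lt_one_of_inv_notMem ((hV' _).2 h.unif.mem)
    rw [← map_inv₀, hV']
    exact h.unif.inv_not_mem
  have hrel := congrArg (fun s : adjoinRing O y => (s : L)) h.rel
  simp only [Subring.coe_add, Subring.coe_mul, Subring.coe_pow, Subring.coe_zero] at hrel
  rw [h.coe_pi₀] at hrel
  set α : L := ((evS O y (Polynomial.X - Polynomial.C a) : adjoinRing O y) : L) with hα
  set π : L := ((evS O y (Polynomial.X - Polynomial.C c) : adjoinRing O y) : L) with hπ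
  set g : L := ((evS O y G : adjoinRing O y) : L) with hg
  have hαV : V'.valuation α ≤ 1 := (V'.valuation_le_one_iff _).2 (hS _)
  have hπV : V'.valuation π ≤ 1 := (V'.valuation_le_one_iff _).2 (hS _)
  have hgV : V'.valuation g ≤ 1 := (V'.valuation_le_one_iff _).2 (hS _)
  have hprod : V'.valuation α * V'.valuation π ^ n < 1 := by
    have h1 : α * π ^ n = -(algebraMap K L ϖ * g) := eq_neg_of_add_eq_zero_left hrel
    have h2 : V'.valuation (α * π ^ n) = V'.valuation (algebraMap K L ϖ) * V'.valuation g := by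
      rw [h1, Valuation.map_neg, map_mul]
    rw [map_mul, map_pow] at h2
    rw [h2]
    calc V'.valuation (algebraMap K L ϖ) * V'.valuation g
        ≤ V'.valuation (algebraMap K L ϖ) * 1 := mul_le_mul_right hgV _
      _ < 1 := by rw [mul_one]; exact hϖ
  have hcases : V'.valuation α < 1 ∨ V'.valuation π < 1 := by
    by_contra hcon
    rw [not_or, not_lt, not_lt] at hcon
    have h1 : V'.valuation α = 1 := le_antisymm hαV hcon.1
    have h2 : V'.valuation π = 1 := le_antisymm hπV hcon.2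
    rw [h1, h2, one_pow, one_mul] at hprod
    exact lt_irrefl _ hprod
  have key : ∀ (r : O) (z : L), z = ((evS O y (Polynomial.X - Polynomial.C r) : adjoinRing O y) : L) →
      V'.valuation z < 1 → ∀ s : adjoinRing O y, s ∈ maxAt O y ϖ r → s ≠ 0 → (s : L)⁻¹ ∉ V' := by
    intro r z hz hzV s hs hs0
    obtain ⟨s₁, s₂, rfl⟩ := exists_decomp_of_mem_maxAt h.unif hs
    apply inv_notMem_of_val_lt_one (fun h0 => hs0 (Subtype.ext h0))
    push_cast
    rw [h.coe_pi₀, ← hz]
    apply Valuation.map_add_lt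
    · rw [map_mul]
      calc V'.valuation (algebraMap K L ϖ) * V'.valuation (s₁ : L)
          ≤ V'.valuation (algebraMap K L ϖ) * 1 :=
            mul_le_mul_right ((V'.valuation_le_one_iff _).2 (hS _)) _
        _ < 1 := by rw [mul_one]; exact hϖ
    · rw [map_mul]
      calc V'.valuation z * V'.valuation (s₂ : L)
          ≤ V'.valuation z * 1 :=
            mul_le_mul_right ((V'.valuation_le_one_iff _).2 (hS _)) _
        _ < 1 := by rw [mul_one]; exact hzV
  rcases hcases with h1 | h1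
  · left
    exact @eq_locVal_of_le L _ _ _ _ h.isNoetherianRing h.isMaximal_a h.locGen_a h.isFracOf V' hS
      (key a α rfl h1)
  · right
    exact @eq_locVal_of_le L _ _ _ _ h.isNoetherianRing h.isMaximal_c h.locGen_c h.isFracOf V' hS
      (key c π rfl h1)

end EisData

/-- **Eisenstein-split theorem** (packaged form). -/
theorem exists_two_extensions {Ψ G : O[X]} {a c : O} {n : ℕ} (h : EisData O ϖ y Ψ G a c n) :
    ∃ Va Vc : ValuationSubring L,
      (∀ k : K, algebraMap K L k ∈ Va ↔ k ∈ O) ∧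
      (∀ k : K, algebraMap K L k ∈ Vc ↔ k ∈ O) ∧
      y ∈ Va ∧ y ∈ Vc ∧
      IsUnif Va (algebraMap K L ϖ) ∧
      (y - algebraMap K L (a : K)) * (algebraMap K L ϖ)⁻¹ ∈ Va ∧
      IsUnif Vc (y - algebraMap K L (c : K)) ∧
      (∃ u : L, u ∈ Vc ∧ u⁻¹ ∈ Vc ∧
        (y - algebraMap K L (c : K)) ^ n = algebraMap K L ϖ * u) ∧
      (∀ f ∈ Va, ∃ g ∈ O, (f - algebraMap K L g) * (algebraMap K L ϖ)⁻¹ ∈ Va) ∧
      (∀ f ∈ Vc, ∃ g ∈ O, (f - algebraMap K L g) * (y - algebraMap K L (c : K))⁻¹ ∈ Vc) ∧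
      (∀ V' : ValuationSubring L, (∀ k : K, algebraMap K L k ∈ V' ↔ k ∈ O) →
        V' = Va ∨ V' = Vc) ∧
      Va ≠ Vc :=
  ⟨h.Va, h.Vc, h.algebraMap_mem_Va_iff, h.algebraMap_mem_Vc_iff, h.y_mem_Va, h.y_mem_Vc,
    h.isUnif_Va, h.sub_a_mem, h.isUnif_Vc, h.exists_unit_Vc, fun _ hf => h.residue_Va hf,
    fun _ hf => h.residue_Vc hf, h.eq_Va_or_eq_Vc, h.Va_ne_Vc⟩

/-! ### Producing the hypotheses -/

/-- `L = K[y]` from the degree. -/
theorem gen_of_natDegree_eq [FiniteDimensional K L] {Ψ : O[X]}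
    (hmin : minpoly K y = Ψ.map O.subtype) (hdeg : Ψ.natDegree = Module.finrank K L) :
    ∀ f : L, ∃ P : K[X], Polynomial.aeval y P = f := by
  have hinj : Function.Injective (O.subtype : O →+* K) := Subtype.val_injective
  have htop : IntermediateField.adjoin K {y} = ⊤ := by
    rw [Field.primitive_element_iff_minpoly_natDegree_eq, hmin,
      Polynomial.natDegree_map_eq_of_injective hinj, hdeg]
  intro f
  have hf : f ∈ (IntermediateField.adjoin K {y}).toSubalgebra := by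
    rw [htop]
    exact IntermediateField.mem_top
  rw [IntermediateField.adjoin_simple_toSubalgebra_of_isAlgebraic
    (Algebra.IsAlgebraic.isAlgebraic y), Algebra.adjoin_singleton_eq_range_aeval] at hf
  exact hf

/-- The minimal polynomial from a monic annihilating polynomial of prime degree `[L : K]`. -/
theorem minpoly_eq_map_of_prime [FiniteDimensional K L] {Ψ : O[X]} (hΨ : Ψ.Monic)
    (hprime : (Module.finrank K L).Prime) (hdeg : Ψ.natDegree = Module.finrank K L)
    (hy : Ψ.eval₂ (phi O) y = 0) (hyK : y ∉ (algebraMap K L).range) :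
    minpoly K y = Ψ.map O.subtype := by
  have hinj : Function.Injective (O.subtype : O →+* K) := Subtype.val_injective
  have hint : IsIntegral K y := Algebra.IsIntegral.isIntegral y
  have hdvd : minpoly K y ∣ Ψ.map O.subtype :=
    minpoly.dvd K y (by rw [← eval₂_phi_eq_aeval]; exact hy)
  have h1 : (minpoly K y).natDegree ∣ Module.finrank K L := by
    rw [← IntermediateField.adjoin.finrank hint]
    exact ⟨_, (Module.finrank_mul_finrank K (IntermediateField.adjoin K {y}) L).symm⟩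
  have h2 : (minpoly K y).natDegree = Module.finrank K L := by
    rcases (Nat.dvd_prime hprime).1 h1 with h3 | h3
    · exfalso
      exact hyK ((minpoly.natDegree_eq_one_iff).1 h3)
    · exact h3
  symm
  refine Polynomial.eq_of_monic_of_dvd_of_natDegree_le (minpoly.monic hint) (hΨ.map _) hdvd ?_
  rw [Polynomial.natDegree_map_eq_of_injective hinj, hdeg, h2]

end Main

end Fermat.Agent.S36.H972
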