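import Fermat.Agent.S36.H972.Mod3Base
import Fermat.Agent.S36.H972.EisSeries
import Fermat.Agent.S37.H818.ModularNorm

/-!
# S36 / MOD3 (helper972): the middle valuation `V_mid` at level `q² M`, concretely

Setting of `A2/Mod/Spec` (`Setting P E M q w` : `q` prime, `q ∤ M`, `R_E = P ∩ E` a DVR with
uniformiser `w`), base UNRAMIFIED at `q` (`Unram`: `q = w · unit`).  `K = F_{Mq}`, `L = F_{Mqq}`,
`α : K → L` the inclusion, `V1` the Gauss valuation ring of `K`, `V` the Gauss valuation ring of
`L`.  From the formal input `EisSeries q A Ψ G` (producer: helper83 `S36/H83/Eis.lean`, bridge in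
`EisOfH83.lean`) we get the hypotheses `EisData` of the abstract Eisenstein-split theorem
(`EisSplit.lean`) for `y = j_{q²}`, `c = j`, `a = A(j, j_q)`, and conclude (`mod3_alpha`):

there is a valuation ring `V_mid ≠ V` of `L` such that
* `V` and `V_mid` are exactly the valuation rings of `L` lying over `V1` along `α`;
* `V_mid` has uniformiser `j_{q²} - j`, `(j_{q²} - j)^(q-1) = w · unit` (`e = q - 1`);
* both have residue degree one over `V1`.
-/

set_option autoImplicit false
set_option linter.unusedSectionVars false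
set_option linter.style.haveILetI false
set_option synthInstance.maxHeartbeats 400000
set_option maxHeartbeats 1600000

noncomputable section

namespace Fermat.Agent.S36.H972

open ModularCurve HahnSeries Polynomial AlgebraicCurve
open Fermat.Agent.A2 Fermat.Agent.A2.Mod Fermat.Agent.A2.H48 Fermat.Agent.S28

/-- The base is unramified at `q`: `q = w · unit` in `R_E`. -/
def Unram (P : ValuationSubring Qb) (E : IntermediateField ℚ Qb) (q : ℕ) (w : RE P E) : Prop :=
  ∃ u : (RE P E)ˣ, ((q : ℕ) : E) = (w : E) * ((u : RE P E) : E)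

namespace EisData

variable {K L : Type*} [Field K] [Field L] [Algebra K L]
variable {O : ValuationSubring K} {y : L} {ϖ : K}
variable {Ψ G : O[X]} {a c : O} {n : ℕ} (h : EisData O ϖ y Ψ G a c n)

include h in
/-- `y - a` is a unit of `V_c`. -/
theorem inv_sub_a_mem_Vc : (y - algebraMap K L (a : K))⁻¹ ∈ h.Vc := by
  have := @inv_mem_locVal_of_notMem L _ _ _ _ h.isNoetherianRing h.isMaximal_c h.locGen_c
    h.isFracOf _ h.alpha_notMem
  rwa [coe_evS_X_sub_C] at this

end EisData

section Alpha

variable {P : ValuationSubring Qb} {E : IntermediateField ℚ Qb} {M q : ℕ} [NeZero M] [NeZero q]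
  {w : RE P E}

variable (E M q) in
/-- `j_{q²} ∈ F_{Mqq}`. -/
def jqq : FE E (M * q * q) := jE E (M * q * q) (q * q) ⟨M, by ring⟩

variable (E M q) in
/-- `j ∈ F_{Mq}`. -/
def jone : FE E (M * q) := jE E (M * q) 1 (one_dvd _)

theorem coe_jqq : ((jqq E M q : FE E (M * q * q)) : LaurentSeries E) =
    castE E (qExpand ℤ (q * q) (jqModC ℤ)) := coe_jE' E _ _ _

theorem coe_jone : ((jone E M q : FE E (M * q)) : LaurentSeries E) = castE E (jqModC ℤ) := by
  rw [jone, coe_jE', qExpand_one_apply]

/-- `ℤ[J, J_q]` maps into `F_{Mq}`. -/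
theorem castE_mem_of_mem_jjRing {g : LaurentSeries ℤ} (hg : g ∈ jjRing q) :
    castE E g ∈ FE E (M * q) := by
  have hle : jjRing q ≤ (FE E (M * q)).toSubring.comap (castE E) := by
    rw [jjRing, Subring.closure_le]
    rintro x (rfl | rfl)
    · show castE E (jqModC ℤ) ∈ FE E (M * q)
      rw [castE_j]
      exact H378.jser_mem E (M * q) 1 (one_dvd _)
    · show castE E (qExpand ℤ q (jqModC ℤ)) ∈ FE E (M * q)
      rw [castE_qExpand_j]
      exact H378.jser_mem E (M * q) q (dvd_mul_left q M)
  exact hle hg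

/-- `j_{q²} ∉ α(F_{Mq})` (Fricke: otherwise `j_M ∈ E((t^q))`). -/
theorem jqq_not_mem_range (hqM : ¬ q ∣ M) (g : FE E (M * q)) :
    αE E (M * q) q g ≠ jqq E M q := by
  intro h
  have hc := H553.frickeCompat E (M * q) q (H553.wE E (M * q)) (H553.wE E (M * q * q))
    (H553.isFricke_wE E (M * q)) (H553.isFricke_wE E (M * q * q)) g
  have h1 : H553.wE E (M * q * q) (jqq E M q) = jE E (M * q * q) M ⟨q * q, by ring⟩ :=
    H553.wE_jE E (M * q * q) (q * q) M _ _ (by ring)
  rw [h, h1] at hc
  have h2 := congrArg (fun z : FE E (M * q * q) => ((z : LaurentSeries E)).coeff (-(M : ℤ))) hc.1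
  simp only [coe_heckeBetaBar] at h2
  rw [coe_jE', castE_coeff,
    show (-(M : ℤ)) = (M : ℤ) * (-1) by ring, qExpand_coeff_mul, coeff_jqModC_neg_one] at h2
  rw [show (M : ℤ) * (-1) = -(M : ℤ) by ring, qExpand_coeff_of_not_dvd] at h2
  · simp at h2
  · rw [Int.dvd_neg]
    exact_mod_cast hqM

/-- the comparison `valHom ∘ α = valV` on `V1`. -/
theorem valHom_comp_phi (V1 : ValuationSubring (FE E (M * q))) :
    letI : Algebra (FE E (M * q)) (FE E (M * q * q)) := algebraAlong (αE E (M * q) q)
    (H378.valHom E (M * q * q)).comp (phi (L := FE E (M * q * q)) V1) = valV V1 := by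
  letI : Algebra (FE E (M * q)) (FE E (M * q * q)) := algebraAlong (αE E (M * q) q)
  refine RingHom.ext fun x => ?_
  have h : algebraMap (FE E (M * q)) (FE E (M * q * q)) = (αE E (M * q) q).toRingHom :=
    RingHom.algebraMap_toAlgebra _
  rw [RingHom.comp_apply, phi_apply, h, H378.valHom_apply, valV_apply]
  exact coe_heckeAlphaBar (M * q) q (x : FE E (M * q))

theorem finrank_alpha (hq : q.Prime) :
    letI : Algebra (FE E (M * q)) (FE E (M * q * q)) := algebraAlong (αE E (M * q) q)
    Module.finrank (FE E (M * q)) (FE E (M * q * q)) = q := by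
  have h := Fermat.Agent.S37.H818.finrankAlong_heckeAlphaBar' (L := E) (M * q) q hq
  rw [if_pos (dvd_mul_left q M)] at h
  exact h

theorem finite_alpha (hq : q.Prime) :
    letI : Algebra (FE E (M * q)) (FE E (M * q * q)) := algebraAlong (αE E (M * q) q)
    FiniteDimensional (FE E (M * q)) (FE E (M * q * q)) :=
  Fermat.Agent.S37.H818.finiteAlong_heckeAlphaBar (L := E) (M * q) q hq

/-- **The Eisenstein-split data at level `q² M`.** -/
theorem exists_eisData (hS : Setting P E M q w) (hun : Unram P E q w)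
    {A : LaurentSeries ℤ} {Ψ G : (LaurentSeries ℤ)[X]} (hE : EisSeries q A Ψ G)
    {V1 : ValuationSubring (FE E (M * q))} (hV1 : IsVinf P E (M * q) V1) :
    letI : Algebra (FE E (M * q)) (FE E (M * q * q)) := algebraAlong (αE E (M * q) q)
    ∃ (Ψ' G' : V1[X]) (a c : V1),
      valV V1 a = castE E A ∧ ((c : V1) : FE E (M * q)) = jone E M q ∧
      EisData V1 (cE P E (M * q) w) (jqq E M q) Ψ' G' a c (q - 1) := by
  letI : Algebra (FE E (M * q)) (FE E (M * q * q)) := algebraAlong (αE E (M * q) q)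
  haveI := hS.dvr
  have hq := hS.q_prime
  haveI : FiniteDimensional (FE E (M * q)) (FE E (M * q * q)) := finite_alpha hq
  have hMq : M * q ≠ 0 := NeZero.ne _
  obtain ⟨u, hu⟩ := hun
  -- the subring of integral series with expansion in `F_{Mq}`
  set T : Subring (LaurentSeries ℤ) := (FE E (M * q)).toSubring.comap (castE E) with hT
  have hjjT : jjRing q ≤ T := fun g hg => castE_mem_of_mem_jjRing hg
  have hTlift : ∀ Q : (LaurentSeries ℤ)[X], Q ∈ Polynomial.liftsRing T.subtype →
      ∀ i, castE E (Q.coeff i) ∈ FE E (M * q) := by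
    intro Q hQ i
    rw [← Polynomial.lifts_iff_liftsRing, Polynomial.lifts_iff_coeff_lifts] at hQ
    obtain ⟨x, hx⟩ := hQ i
    rw [← hx]
    exact x.2
  have hliftT : ∀ Q : (LaurentSeries ℤ)[X], (∀ i, Q.coeff i ∈ T) →
      Q ∈ Polynomial.liftsRing T.subtype := by
    intro Q hQ
    rw [← Polynomial.lifts_iff_liftsRing, Polynomial.lifts_iff_coeff_lifts]
    exact fun i => ⟨⟨_, hQ i⟩, rfl⟩
  have hCT : ∀ g ∈ T, (Polynomial.C g : (LaurentSeries ℤ)[X]) ∈ Polynomial.liftsRing T.subtype := by
    intro g hg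
    rw [← Polynomial.lifts_iff_liftsRing]
    exact Polynomial.C_mem_lifts T.subtype ⟨g, hg⟩
  have hXT : (Polynomial.X : (LaurentSeries ℤ)[X]) ∈ Polynomial.liftsRing T.subtype := by
    rw [← Polynomial.lifts_iff_liftsRing]
    exact Polynomial.X_mem_lifts T.subtype
  have hJT : jqModC ℤ ∈ T := hjjT (Subring.subset_closure (by simp))
  have hAT : A ∈ T := hjjT hE.A_mem
  have hΨT : Ψ ∈ Polynomial.liftsRing T.subtype := hliftT Ψ fun i => hjjT (hE.coeff_mem i)
  -- coefficients of `G`
  have hqG : Polynomial.C (q : LaurentSeries ℤ) * G ∈ Polynomial.liftsRing T.subtype := by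
    have : Polynomial.C (q : LaurentSeries ℤ) * G =
        Ψ - (Polynomial.X - Polynomial.C A) *
          (Polynomial.X - Polynomial.C (jqModC ℤ)) ^ (q - 1) := by
      conv_rhs => rw [hE.dec]
      ring
    rw [this]
    exact sub_mem hΨT (mul_mem (sub_mem hXT (hCT _ hAT)) (pow_mem (sub_mem hXT (hCT _ hJT)) _))
  have hq0E : ((q : ℕ) : LaurentSeries E) ≠ 0 := by
    have : ((q : ℕ) : LaurentSeries E) = algebraMap E (LaurentSeries E) ((q : ℕ) : E) :=
      (map_natCast _ q).symm
    rw [this]
    exact (map_ne_zero_iff _ (algebraMap E (LaurentSeries E)).injective).mpr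
      (Nat.cast_ne_zero.mpr hq.ne_zero)
  have hqmem : ((q : ℕ) : LaurentSeries E) ∈ FE E (M * q) := natCast_mem _ q
  have hGF : ∀ i, castE E (G.coeff i) ∈ FE E (M * q) := by
    intro i
    have h1 := hTlift _ hqG i
    rw [Polynomial.coeff_C_mul, map_mul, castE_natCast] at h1
    have h2 : castE E (G.coeff i) =
        ((q : ℕ) : LaurentSeries E)⁻¹ * (((q : ℕ) : LaurentSeries E) * castE E (G.coeff i)) := by
      rw [← mul_assoc, inv_mul_cancel₀ hq0E, one_mul]
    rw [h2]
    exact mul_mem (inv_mem hqmem) h1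
  -- lifts
  obtain ⟨Ψ', hΨ'⟩ := exists_lift_poly hV1 Ψ (hTlift Ψ hΨT)
  obtain ⟨G₁, hG₁⟩ := exists_lift_poly hV1 G hGF
  obtain ⟨a, ha⟩ := exists_lift hV1 A hAT
  obtain ⟨c, hc⟩ := exists_lift hV1 (jqModC ℤ) hJT
  have hcj : ((c : V1) : FE E (M * q)) = jone E M q := by
    apply Subtype.ext
    rw [coe_jone]
    exact hc
  have hinj := valV_injective V1
  have hL2 := H553.vinfBasic P E w (M * q) hMq hS.dvr hS.unif V1 hV1
  have hunif : IsUnif V1 (cE P E (M * q) w) := hL2.1
  set uO : V1 := ⟨cE P E (M * q) (u : RE P E), cE_mem_vinf hV1 _⟩ with huO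
  have huOinv : ((uO : V1) : FE E (M * q))⁻¹ ∈ V1 := by
    have : ((uO : V1) : FE E (M * q))⁻¹ = cE P E (M * q) ((u⁻¹ : (RE P E)ˣ) : RE P E) := by
      rw [huO]
      show (algebraMap E (FE E (M * q)) ((u : RE P E) : E))⁻¹ = algebraMap E (FE E (M * q)) _
      rw [← map_inv₀]
      congr 1
      apply inv_eq_of_mul_eq_one_right
      have h5 := congrArg (RE P E).subtype u.mul_inv
      rw [map_mul, map_one] at h5
      exact h5
    rw [this]
    exact cE_mem_vinf hV1 _
  have huO0 : ((uO : V1) : FE E (M * q)) ≠ 0 := by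
    rw [huO]
    show algebraMap E (FE E (M * q)) ((u : RE P E) : E) ≠ 0
    exact (map_ne_zero_iff _ (algebraMap E (FE E (M * q))).injective).mpr
      (fun h => u.ne_zero (Subtype.ext h))
  have hwu : valV V1 ⟨cE P E (M * q) w, hunif.mem⟩ * valV V1 uO = ((q : ℕ) : LaurentSeries E) := by
    have h1 : cE P E (M * q) w * cE P E (M * q) (u : RE P E) = ((q : ℕ) : FE E (M * q)) := by
      simp only [cE]
      rw [← map_mul, ← hu, map_natCast]
    have h2 := congrArg (fun z : FE E (M * q) => (z : LaurentSeries E)) h1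
    show ((cE P E (M * q) w : FE E (M * q)) : LaurentSeries E) *
      ((cE P E (M * q) (u : RE P E) : FE E (M * q)) : LaurentSeries E) = _
    simpa using h2
  -- the fields
  have hmonic : Ψ'.Monic := Polynomial.monic_of_injective hinj (by rw [hΨ']; exact hE.monic.map _)
  have hdeg : Ψ'.natDegree = Module.finrank (FE E (M * q)) (FE E (M * q * q)) := by
    rw [finrank_alpha hq, ← Polynomial.natDegree_map_eq_of_injective hinj, hΨ',
      hE.monic.natDegree_map, hE.natDegree_eq]
  have hroot : Ψ'.eval₂ (phi V1) (jqq E M q) = 0 := by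
    apply (H378.valHom E (M * q * q)).injective
    rw [Polynomial.hom_eval₂, valHom_comp_phi, map_zero, ← Polynomial.eval_map, hΨ',
      H378.valHom_apply, coe_jqq, Polynomial.eval_map, Polynomial.eval₂_at_apply, hE.root,
      map_zero]
  have hyK : jqq E M q ∉ (algebraMap (FE E (M * q)) (FE E (M * q * q))).range := by
    rintro ⟨g, hg⟩
    exact jqq_not_mem_range hS.q_not_dvd g hg
  have hprime : (Module.finrank (FE E (M * q)) (FE E (M * q * q))).Prime := by
    rw [finrank_alpha hq]
    exact hq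
  have hmin := minpoly_eq_map_of_prime hmonic hprime hdeg hroot hyK
  have hdec : Ψ' = (Polynomial.X - Polynomial.C a) * (Polynomial.X - Polynomial.C c) ^ (q - 1) +
      Polynomial.C ⟨cE P E (M * q) w, hunif.mem⟩ * (Polynomial.C uO * G₁) := by
    apply Polynomial.map_injective _ hinj
    rw [hΨ']
    conv_lhs => rw [hE.dec]
    simp only [Polynomial.map_add, Polynomial.map_mul, Polynomial.map_pow, Polynomial.map_sub,
      Polynomial.map_X, Polynomial.map_C, hG₁, ha, hc]
    rw [← mul_assoc, ← Polynomial.C_mul, hwu, castE_natCast]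
  have hsub : IsUnit (a - c) := by
    have hser : (((a - c : V1) : FE E (M * q)) : LaurentSeries E) = castE E (A - jqModC ℤ) := by
      rw [map_sub, ← ha, ← hc]
      rfl
    refine isUnit_of_inv_mem ?_ (inv_mem_of_castE hq hS.lies_over hV1 hser hE.A_unit)
    intro h0
    rw [h0] at hser
    have h1 : A - jqModC ℤ = 0 := castE_injective E (by rw [map_zero]; exact hser.symm)
    obtain ⟨n, hn⟩ := hE.A_unit
    rw [h1] at hn
    exact hn (by simp)
  have hGu : IsUnit ((Polynomial.C uO * G₁).eval c) := by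
    rw [Polynomial.eval_mul, Polynomial.eval_C]
    have hser : (((G₁.eval c : V1) : FE E (M * q)) : LaurentSeries E) =
        castE E (G.eval (jqModC ℤ)) := by
      have h1 : valV V1 (G₁.eval c) = (G₁.map (valV V1)).eval (valV V1 c) := by
        rw [Polynomial.eval_map, Polynomial.eval₂_at_apply]
      rw [hG₁, hc, Polynomial.eval_map, Polynomial.eval₂_at_apply] at h1
      exact h1
    have hG0 : ((G₁.eval c : V1) : FE E (M * q)) ≠ 0 := by
      intro h0
      rw [h0] at hser
      have h1 : G.eval (jqModC ℤ) = 0 := castE_injective E (by rw [map_zero]; exact hser.symm)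
      obtain ⟨n, hn⟩ := hE.unit
      rw [h1] at hn
      exact hn (by simp)
    exact (isUnit_of_inv_mem huO0 huOinv).mul
      (isUnit_of_inv_mem hG0 (inv_mem_of_castE hq hS.lies_over hV1 hser hE.unit))
  refine ⟨Ψ', Polynomial.C uO * G₁, a, c, ha, hcj, ?_⟩
  exact
    { unif := hunif
      arch := arch_vinf hS.unif hV1
      monic := hmonic
      minpoly_eq := hmin
      gen := gen_of_natDegree_eq hmin hdeg
      pos := by have := hq.two_le; omega
      dec := hdec
      unit_sub := hsub
      unit_G := hGu }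

variable (E M q) in
/-- `j ∈ F_{Mqq}`. -/
def jtop : FE E (M * q * q) := jE E (M * q * q) 1 (one_dvd _)

theorem alpha_jone : αE E (M * q) q (jone E M q) = jtop E M q :=
  H553.αE_jE E (M * q) q 1 (one_dvd _)

theorem alpha_cE' (N : ℕ) [NeZero N] (r : RE P E) :
    αE E N q (cE P E N r) = cE P E (N * q) r :=
  (αE E N q).commutes (r : E)

/-- **MOD3, `α`-side**: the Gauss valuation `V = V_FF` and the middle valuation `V_mid` are
exactly the valuation rings of `F_{Mqq}` lying over the Gauss valuation `V1` of `F_{Mq}` along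
`α`; `e(V_FF) = 1`, `e(V_mid) = q - 1` with uniformiser `j_{q²} - j`, residue degrees one. -/
theorem mod3_alpha (hS : Setting P E M q w) (hun : Unram P E q w)
    {A : LaurentSeries ℤ} {Ψ G : (LaurentSeries ℤ)[X]} (hE : EisSeries q A Ψ G)
    {V1 : ValuationSubring (FE E (M * q))} (hV1 : IsVinf P E (M * q) V1)
    {V : ValuationSubring (FE E (M * q * q))} (hV : IsVinf P E (M * q * q) V) :
    ∃ Vmid : ValuationSubring (FE E (M * q * q)),
      Vmid ≠ V ∧
      (∀ k, αE E (M * q) q k ∈ Vmid ↔ k ∈ V1) ∧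
      IsUnif Vmid (jqq E M q - jtop E M q) ∧
      (∃ u, u ∈ Vmid ∧ u⁻¹ ∈ Vmid ∧
        (jqq E M q - jtop E M q) ^ (q - 1) = cE P E (M * q * q) w * u) ∧
      (∀ f ∈ Vmid, ∃ g ∈ V1,
        (f - αE E (M * q) q g) * (jqq E M q - jtop E M q)⁻¹ ∈ Vmid) ∧
      (∀ f ∈ V, ∃ g ∈ V1, (f - αE E (M * q) q g) * (cE P E (M * q * q) w)⁻¹ ∈ V) ∧
      (∀ V' : ValuationSubring (FE E (M * q * q)),
        (∀ k, αE E (M * q) q k ∈ V' ↔ k ∈ V1) → V' = V ∨ V' = Vmid) := by
  letI : Algebra (FE E (M * q)) (FE E (M * q * q)) := algebraAlong (αE E (M * q) q)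
  haveI := hS.dvr
  have hq := hS.q_prime
  obtain ⟨Ψ', G', a, c, ha, hcj, h⟩ := exists_eisData hS hun hE hV1
  have halg : ∀ k : FE E (M * q),
      algebraMap (FE E (M * q)) (FE E (M * q * q)) k = αE E (M * q) q k := fun k => rfl
  have hc' : algebraMap (FE E (M * q)) (FE E (M * q * q)) (c : FE E (M * q)) = jtop E M q := by
    rw [halg, hcj, alpha_jone]
  have hw' : algebraMap (FE E (M * q)) (FE E (M * q * q)) (cE P E (M * q) w) =
      cE P E (M * q * q) w := by
    rw [halg, alpha_cE']
  have hN : M * q * q ≠ 0 := NeZero.ne _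
  have hL2 := H553.vinfBasic P E w (M * q * q) hN hS.dvr hS.unif V hV
  have hover : ∀ k : FE E (M * q),
      algebraMap (FE E (M * q)) (FE E (M * q * q)) k ∈ V ↔ k ∈ V1 := fun k => by
    rw [halg]
    exact alpha_mem_iff' hV1 hV k
  -- `V` is `V_a`
  have hVa : V = h.Va := by
    rcases h.eq_Va_or_eq_Vc V hover with h1 | h1
    · exact h1
    exfalso
    have hinv := h.inv_sub_a_mem_Vc
    rw [← h1] at hinv
    obtain ⟨H, hH⟩ := hE.A_cong
    obtain ⟨u, hu⟩ := hun
    set d : FE E (M * q * q) :=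
      jqq E M q - algebraMap (FE E (M * q)) (FE E (M * q * q)) (a : FE E (M * q)) with hd
    have hdser : (d : LaurentSeries E) = ((q : ℕ) : LaurentSeries E) * castE E H := by
      rw [hd, halg]
      have h2 : ((jqq E M q - αE E (M * q) q (a : FE E (M * q)) : FE E (M * q * q)) :
          LaurentSeries E) = (jqq E M q : LaurentSeries E) -
            ((αE E (M * q) q (a : FE E (M * q)) : FE E (M * q * q)) : LaurentSeries E) := rfl
      rw [h2, coe_heckeAlphaBar, coe_jqq, ← valV_apply, ha, ← map_sub, hH, map_mul,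
        castE_natCast]
    have hd0 : d ≠ 0 := by
      intro h0
      have : jqq E M q = algebraMap (FE E (M * q)) (FE E (M * q * q)) (a : FE E (M * q)) :=
        sub_eq_zero.mp (hd ▸ h0)
      exact jqq_not_mem_range hS.q_not_dvd (a : FE E (M * q)) ((halg _).symm.trans this.symm)
    have hq0 : ((q : ℕ) : FE E (M * q * q)) ≠ 0 := Nat.cast_ne_zero.mpr hq.ne_zero
    have hfH : d * ((q : ℕ) : FE E (M * q * q))⁻¹ ∈ V := by
      refine mem_of_castE hV (g := H) ?_
      have h3 : ((d * ((q : ℕ) : FE E (M * q * q))⁻¹ : FE E (M * q * q)) : LaurentSeries E) =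
          (d : LaurentSeries E) * (((q : ℕ) : LaurentSeries E))⁻¹ := by
        rw [IntermediateField.coe_mul, IntermediateField.coe_inv]
        simp
      have hq0' : ((q : ℕ) : LaurentSeries E) ≠ 0 := by
        intro h4
        apply hq0
        apply Subtype.ext
        simpa using h4
      rw [h3, hdser]
      field_simp
    have hqw : ((q : ℕ) : FE E (M * q * q)) =
        cE P E (M * q * q) w * cE P E (M * q * q) (u : RE P E) := by
      simp only [cE]
      rw [← map_mul, ← hu, map_natCast]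
    have hw0 : cE P E (M * q * q) w ≠ 0 := hL2.1.ne_zero
    have hu0 : cE P E (M * q * q) (u : RE P E) ≠ 0 := by
      intro h0
      rw [h0, mul_zero] at hqw
      exact hq0 hqw
    have hdw : d * (cE P E (M * q * q) w)⁻¹ ∈ V := by
      have : d * (cE P E (M * q * q) w)⁻¹ =
          (d * ((q : ℕ) : FE E (M * q * q))⁻¹) * cE P E (M * q * q) (u : RE P E) := by
        rw [hqw]
        field_simp
      rw [this]
      exact mul_mem hfH (cE_mem_vinf hV _)
    apply hL2.1.inv_not_mem
    have : (cE P E (M * q * q) w)⁻¹ = (d * (cE P E (M * q * q) w)⁻¹) * d⁻¹ := by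
      field_simp
    rw [this]
    exact mul_mem hdw hinv
  refine ⟨h.Vc, ?_, ?_, ?_, ?_, ?_, ?_, ?_⟩
  · rw [hVa]
    exact h.Va_ne_Vc.symm
  · intro k
    rw [← halg]
    exact h.algebraMap_mem_Vc_iff k
  · have := h.isUnif_Vc
    rwa [hc'] at this
  · obtain ⟨u, hu1, hu2, hu3⟩ := h.exists_unit_Vc
    rw [hc', hw'] at hu3
    exact ⟨u, hu1, hu2, hu3⟩
  · intro f hf
    obtain ⟨g, hg, hfg⟩ := h.residue_Vc hf
    rw [hc'] at hfg
    exact ⟨g, hg, hfg⟩
  · intro f hf
    rw [hVa] at hf
    obtain ⟨g, hg, hfg⟩ := h.residue_Va hf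
    rw [hw', ← hVa] at hfg
    exact ⟨g, hg, hfg⟩
  · intro V' hV'
    rcases h.eq_Va_or_eq_Vc V' hV' with h1 | h1
    · left
      rw [hVa]
      exact h1
    · right
      exact h1

end Alpha

end Fermat.Agent.S36.H972

end
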