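import Fermat.Agent.S36.H972.Mod3
import Fermat.Agent.S36.H972.EisOfH83

/-!
# S36 / MOD3 (helper972): `α`-side, unconditional

`mod3_alpha_main`: `Setting P E M q w` (`q ∤ M`) + base unramified at `q` ⟹ at level `M q²` the
Gauss valuation ring `V` and ONE more valuation ring `V_mid` are exactly the valuation rings lying
over the Gauss valuation ring `V1` of level `M q` along `α`; `V_mid` has uniformiser
`j_{q²} - j`, `(j_{q²} - j)^(q-1) = w · unit`; residue degrees one.
-/

set_option autoImplicit false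

noncomputable section

namespace Fermat.Agent.S36.H972

open ModularCurve Fermat.Agent.A2 Fermat.Agent.A2.Mod Fermat.Agent.A2.H48

theorem mod3_alpha_main {P : ValuationSubring Qb} {E : IntermediateField ℚ Qb} {M q : ℕ}
    [NeZero M] [NeZero q] {w : RE P E} (hS : Setting P E M q w) (hun : Unram P E q w)
    {V1 : ValuationSubring (FE E (M * q))} (hV1 : IsVinf P E (M * q) V1)
    {V : ValuationSubring (FE E (M * q * q))} (hV : IsVinf P E (M * q * q) V) :
    ∃ Vmid : ValuationSubring (FE E (M * q * q)),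
      Vmid ≠ V ∧
      (∀ k, αE E (M * q) q k ∈ Vmid ↔ k ∈ V1) ∧
      IsUnif Vmid (jqq E M q - jtop E M q) ∧
      (∃ u, u ∈ Vmid ∧ u⁻¹ ∈ Vmid ∧
        (jqq E M q - jtop E M q) ^ (q - 1) = cE P E (M * q * q) w * u) ∧
      (∀ f ∈ Vmid, ∃ g ∈ V1,
        (f - αE E (M * q) q g) * (jqq E M q - jtop E M q)⁻¹ ∈ Vmid) ∧
      (∀ f ∈ V, ∃ g ∈ V1, (f - αE E (M * q) q g) * (cE P E (M * q * q) w)⁻¹ ∈ V) ∧
      (∀ V' : ValuationSubring (FE E (M * q * q)),
        (∀ k, αE E (M * q) q k ∈ V' ↔ k ∈ V1) → V' = V ∨ V' = Vmid) := by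
  obtain ⟨Ψ, G, hE⟩ := exists_eisSeries q hS.q_prime
  exact mod3_alpha hS hun hE hV1 hV

end Fermat.Agent.S36.H972

end
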