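import Fermat.Agent.A2.Mod.H553.Vinf
import Fermat.Agent.A2.Mod.H553.Fricke
import Fermat.Agent.A2.Mod.H378.L11
import Fermat.Agent.S36.H972.EisSplit

/-!
# S36 / MOD3 (helper972): Gauss valuation toolkit (any level `N`, any `E`)

Level-free facts on the Gauss valuation ring `V∞` of `F_{N,E}` (`IsVinf P E N V`) used by the
concrete MOD3 instance:

* `castE E : ℤ((t)) →+* E((t))`, `mem_of_castE`, `inv_mem_of_castE` : a function with integral
  `t`-expansion lies in `V∞`; it is a unit of `V∞` as soon as one coefficient is prime to `q`;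
* `arch_vinf` : `V∞` has rank one (`∀ f, ∃ k, w^k f ∈ V∞`);
* `exists_lift_poly` : polynomials over `ℤ((t))` with coefficients in `F_N` lift to `V∞[X]`;
* `alpha_mem_iff'`, `beta_mem_iff'` : `V∞_{Nq}` lies over `V∞_N` along `α` and along `β`
  (no hypothesis `q ∤ N`).
-/

set_option autoImplicit false
set_option linter.unusedSectionVars false
set_option linter.style.haveILetI false
set_option synthInstance.maxHeartbeats 400000
set_option maxHeartbeats 1600000

noncomputable section

namespace Fermat.Agent.S36.H972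

open ModularCurve HahnSeries Polynomial
open Fermat.Agent.A2 Fermat.Agent.A2.Mod Fermat.Agent.A2.H48 Fermat.Agent.S28

/-! ### Integral series -/

section Series

variable (E : IntermediateField ℚ Qb)

/-- `ℤ((t)) → E((t))`. -/
def castE : LaurentSeries ℤ →+* LaurentSeries E := coeffMap (Int.castRingHom E)

theorem castE_eq_coeffEmb (g : LaurentSeries ℤ) :
    castE E g = coeffEmb E (H708.castQ g) := by
  rw [castE, coeffEmb, H708.castQ, coeffMap_coeffMap]
  exact coeffMap_congr (RingHom.ext_int _ _) g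

theorem castE_coeff (g : LaurentSeries ℤ) (n : ℤ) : (castE E g).coeff n = ((g.coeff n : ℤ) : E) := by
  rw [castE, coeffMap_coeff]
  rfl

theorem castE_injective : Function.Injective (castE E) := by
  intro a b h
  ext n
  have h1 := congrArg (fun z => z.coeff n) h
  simp only [castE_coeff] at h1
  exact_mod_cast h1

theorem castE_qExpand_j (d : ℕ) [NeZero d] :
    castE E (qExpand ℤ d (jqModC ℤ)) = H378.jser E d := by
  rw [castE, coeffMap_qExpand, coeffMap_jqModC, H378.jser]

theorem castE_j : castE E (jqModC ℤ) = H378.jser E 1 := by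
  rw [← castE_qExpand_j, qExpand_one_apply]

theorem castE_natCast (n : ℕ) : castE E (n : LaurentSeries ℤ) = (n : LaurentSeries E) :=
  map_natCast _ n

theorem coe_jE' (N d : ℕ) [NeZero d] (hd : d ∣ N) :
    ((jE E N d hd : FE E N) : LaurentSeries E) = castE E (qExpand ℤ d (jqModC ℤ)) := by
  rw [castE_qExpand_j, H378.jser_eq_coeffEmb]
  rfl

end Series

/-! ### Membership in the Gauss ring -/

section Gauss

variable {P : ValuationSubring Qb} {E : IntermediateField ℚ Qb}

theorem mem_of_castE {N : ℕ} {V : ValuationSubring (FE E N)} (hV : IsVinf P E N V)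
    {f : FE E N} {g : LaurentSeries ℤ} (hfg : (f : LaurentSeries E) = castE E g) : f ∈ V :=
  H553.mem_of_int hV (hfg.trans (castE_eq_coeffEmb E g))

/-- an integer prime to `q` is a unit of `R_E`. -/
theorem valuation_intCast_eq_one {q : ℕ} (hq : q.Prime) (hP : P.LiesOverPrime q) {m : ℤ}
    (hm : ¬ (q : ℤ) ∣ m) : (RE P E).valuation ((m : ℤ) : E) = 1 := by
  have hqv : (RE P E).valuation ((q : ℕ) : E) < 1 := by
    have h1 : P.valuation ((q : ℕ) : Qb) < 1 := (ValuationSubring.mem_nonunits_iff P).mp hP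
    have h2 : ((q : ℕ) : E) ∈ (RE P E) := by
      show algebraMap E Qb ((q : ℕ) : E) ∈ P
      rw [map_natCast, ← ValuationSubring.valuation_le_one_iff]
      exact h1.le
    by_contra hcon
    have h3 : (RE P E).valuation ((q : ℕ) : E) = 1 :=
      le_antisymm ((ValuationSubring.valuation_le_one_iff _ _).mpr h2) (not_lt.mp hcon)
    have h4 : (((q : ℕ) : E))⁻¹ ∈ RE P E := by
      rw [← ValuationSubring.valuation_le_one_iff, map_inv₀, h3, inv_one]
    have h5 : (algebraMap E Qb ((q : ℕ) : E))⁻¹ ∈ P := by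
      have : algebraMap E Qb (((q : ℕ) : E))⁻¹ ∈ P := h4
      rwa [map_inv₀] at this
    rw [map_natCast] at h5
    have h6 : P.valuation (((q : ℕ) : Qb))⁻¹ ≤ 1 := (ValuationSubring.valuation_le_one_iff _ _).mpr h5
    rw [map_inv₀] at h6
    have hq0 : P.valuation ((q : ℕ) : Qb) ≠ 0 := by
      rw [Valuation.ne_zero_iff]
      exact_mod_cast hq.ne_zero
    have h7 : 1 ≤ P.valuation ((q : ℕ) : Qb) := by
      rwa [inv_le_one₀ (zero_lt_iff.mpr hq0)] at h6
    exact absurd h1 (not_lt.mpr h7)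
  have hcop : IsCoprime m (q : ℤ) :=
    ((Int.prime_iff_natAbs_prime.mpr (by simpa using hq)).coprime_iff_not_dvd.mpr hm).symm
  obtain ⟨a, b, hab⟩ := hcop
  have hE : ((a : ℤ) : E) * ((m : ℤ) : E) = 1 - ((b : ℤ) : E) * ((q : ℕ) : E) := by
    have : ((a * m + b * q : ℤ) : E) = 1 := by rw [hab]; simp
    push_cast at this
    linear_combination this
  have hint : ∀ z : ℤ, (RE P E).valuation ((z : ℤ) : E) ≤ 1 := by
    intro z
    rw [ValuationSubring.valuation_le_one_iff]
    exact intCast_mem _ z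
  have hbq : (RE P E).valuation (((b : ℤ) : E) * ((q : ℕ) : E)) < 1 := by
    rw [map_mul]
    calc _ ≤ 1 * (RE P E).valuation ((q : ℕ) : E) := by gcongr; exact hint b
      _ = _ := one_mul _
      _ < 1 := hqv
  have h1 : (RE P E).valuation (((a : ℤ) : E) * ((m : ℤ) : E)) = 1 := by
    rw [hE]
    exact Valuation.map_one_sub_of_lt _ hbq
  rw [map_mul] at h1
  refine le_antisymm (hint m) ?_
  calc (1 : _) = (RE P E).valuation ((a : ℤ) : E) * (RE P E).valuation ((m : ℤ) : E) := h1.symm
    _ ≤ 1 * (RE P E).valuation ((m : ℤ) : E) := by gcongr; exact hint a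
    _ = _ := one_mul _

theorem red_castA_ne_zero_of_not_dvd {q : ℕ} (hq : q.Prime) (hP : P.LiesOverPrime q)
    {g : LaurentSeries ℤ} (hg : ∃ n : ℤ, ¬ (q : ℤ) ∣ g.coeff n) :
    H708.red (RE P E) (H708.castA (RE P E) g) ≠ 0 := by
  obtain ⟨n, hn⟩ := hg
  rw [H708.red_ne_zero_iff]
  refine ⟨n, ?_⟩
  have h1 : (((H708.castA (RE P E) g).coeff n : RE P E) : E) = ((g.coeff n : ℤ) : E) := by
    show ((((g.coeff n : ℤ) : RE P E)) : E) = _
    simp
  rw [h1]
  exact valuation_intCast_eq_one hq hP hn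

/-- functions with integral `t`-expansion having a coefficient prime to `q` are units of `V∞`. -/
theorem inv_mem_of_castE {q : ℕ} (hq : q.Prime) (hP : P.LiesOverPrime q)
    {N : ℕ} {V : ValuationSubring (FE E N)} (hV : IsVinf P E N V)
    {f : FE E N} {g : LaurentSeries ℤ} (hfg : (f : LaurentSeries E) = castE E g)
    (hg : ∃ n : ℤ, ¬ (q : ℤ) ∣ g.coeff n) : f⁻¹ ∈ V := by
  rw [hV f⁻¹]
  have hf : (f : LaurentSeries E) = H708.incl (RE P E) (H708.castA (RE P E) g) := by
    rw [hfg, castE_eq_coeffEmb, H553.coeffEmb_castQ (P := P)]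
  have hred := red_castA_ne_zero_of_not_dvd (P := P) (E := E) hq hP hg
  have hne : H708.incl (RE P E) (H708.castA (RE P E) g) ≠ 0 :=
    H708.incl_ne_zero _ (H708.ne_zero_of_red_ne_zero _ hred)
  refine ⟨1, H708.castA (RE P E) g, hred, ?_, ?_⟩
  · rw [← hf]
    exact f.2
  · rw [IntermediateField.coe_inv, hf, inv_mul_cancel₀ hne, map_one]

/-! ### Rank one -/

theorem arch_RE [IsDiscreteValuationRing (RE P E)] {w : RE P E} (hw : Irreducible w) (c : E) :
    ∃ k : ℕ, (w : E) ^ k * c ∈ RE P E := by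
  rcases (RE P E).mem_or_inv_mem c with hc | hc
  · exact ⟨0, by simpa using hc⟩
  · by_cases hc0 : c = 0
    · exact ⟨0, by rw [hc0, mul_zero]; exact zero_mem _⟩
    have hne : (⟨c⁻¹, hc⟩ : RE P E) ≠ 0 := by
      intro h
      exact inv_ne_zero hc0 (congrArg Subtype.val h)
    obtain ⟨n, u, hu⟩ := IsDiscreteValuationRing.eq_unit_mul_pow_irreducible hne hw
    have h1 : c⁻¹ = ((u : RE P E) : E) * (w : E) ^ n := by
      have := congrArg Subtype.val hu
      simpa using this
    have hu0 : ((u : RE P E) : E) ≠ 0 := fun h => u.ne_zero (Subtype.ext h)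
    have hw0 : (w : E) ≠ 0 := fun h => hw.ne_zero (Subtype.ext h)
    refine ⟨n, ?_⟩
    have h2 : (w : E) ^ n * c = (((u⁻¹ : (RE P E)ˣ) : RE P E) : E) := by
      have h3 : ((u : RE P E) : E) * (((u⁻¹ : (RE P E)ˣ) : RE P E) : E) = 1 := by
        have h5 := congrArg (RE P E).subtype u.mul_inv
        rw [map_mul, map_one] at h5
        exact h5
      have h4 : c = (((u : RE P E) : E) * (w : E) ^ n)⁻¹ := by rw [← h1, inv_inv]
      rw [h4]
      field_simp
      linear_combination -h3
    rw [h2]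
    exact ((u⁻¹ : (RE P E)ˣ) : RE P E).2

theorem cE_mem_vinf {N : ℕ} {V : ValuationSubring (FE E N)} (hV : IsVinf P E N V) (r : RE P E) :
    cE P E N r ∈ V := by
  rw [hV]
  exact (H378.isGaussInt_cst_iff (RE P E) _ (r : E)).mpr r.2

/-- `V∞` has rank one. -/
theorem arch_vinf [IsDiscreteValuationRing (RE P E)] {w : RE P E} (hw : Irreducible w)
    {N : ℕ} {V : ValuationSubring (FE E N)} (hV : IsVinf P E N V) (f : FE E N) :
    ∃ k : ℕ, (cE P E N w) ^ k * f ∈ V := by
  by_cases hf : f = 0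
  · exact ⟨0, by rw [hf, mul_zero]; exact zero_mem _⟩
  obtain ⟨c, hc0, hu⟩ := H553.exists_const_mul_unit P E hV hf
  obtain ⟨k, hk⟩ := arch_RE hw c
  refine ⟨k, ?_⟩
  have hcF : algebraMap E (FE E N) c ≠ 0 :=
    (map_ne_zero_iff _ (algebraMap E (FE E N)).injective).mpr hc0
  have h1 : (cE P E N w) ^ k * f =
      (f * (algebraMap E (FE E N) c)⁻¹) * cE P E N ⟨(w : E) ^ k * c, hk⟩ := by
    have : cE P E N ⟨(w : E) ^ k * c, hk⟩ = (cE P E N w) ^ k * algebraMap E (FE E N) c := by
      simp only [cE, map_mul, map_pow]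
    rw [this]
    field_simp
  rw [h1]
  exact mul_mem ((V.valuation_le_one_iff _).mp hu.le) (cE_mem_vinf hV _)

/-! ### Lifting polynomials -/

/-- the expansion map `V∞ → E((t))`. -/
def valV {N : ℕ} (V : ValuationSubring (FE E N)) : V →+* LaurentSeries E :=
  (H378.valHom E N).comp V.subtype

theorem valV_apply {N : ℕ} (V : ValuationSubring (FE E N)) (x : V) :
    valV V x = ((x : FE E N) : LaurentSeries E) := rfl

theorem valV_injective {N : ℕ} (V : ValuationSubring (FE E N)) : Function.Injective (valV V) := by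
  intro a b h
  exact Subtype.ext (Subtype.ext h)

/-- polynomials over `ℤ((t))` with coefficients in `F_N` lift to `V∞[X]`. -/
theorem exists_lift_poly {N : ℕ} {V : ValuationSubring (FE E N)} (hV : IsVinf P E N V)
    (Q : (LaurentSeries ℤ)[X]) (hQ : ∀ i, castE E (Q.coeff i) ∈ FE E N) :
    ∃ Q' : V[X], Q'.map (valV V) = Q.map (castE E) := by
  have h : Q.map (castE E) ∈ Polynomial.lifts (valV V) := by
    rw [Polynomial.lifts_iff_coeff_lifts]
    intro n
    rw [Polynomial.coeff_map]
    exact ⟨⟨⟨castE E (Q.coeff n), hQ n⟩, mem_of_castE hV rfl⟩, rfl⟩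
  exact (Polynomial.mem_lifts _).mp h

theorem exists_lift {N : ℕ} {V : ValuationSubring (FE E N)} (hV : IsVinf P E N V)
    (g : LaurentSeries ℤ) (hg : castE E g ∈ FE E N) :
    ∃ x : V, valV V x = castE E g :=
  ⟨⟨⟨castE E g, hg⟩, mem_of_castE hV rfl⟩, rfl⟩

/-! ### `V∞_{Nq}` lies over `V∞_N` along `α` and `β` -/

section Over

variable {N q : ℕ} [NeZero N] [NeZero q]

theorem alpha_mem_iff' [IsDiscreteValuationRing (RE P E)] {VN : ValuationSubring (FE E N)}
    {V : ValuationSubring (FE E (N * q))} (hVN : IsVinf P E N VN) (hV : IsVinf P E (N * q) V)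
    (g : FE E N) : αE E N q g ∈ V ↔ g ∈ VN := by
  rw [hV (αE E N q g), hVN g, coe_heckeAlphaBar]
  constructor
  · exact H378.isGaussInt_descend (RE P E) (H708.intGen_full N)
      (H708.attainsMax_of_isNoetherianRing _ _) (H378.FE_le E N q) g.2
  · exact H378.isGaussInt_mono (RE P E) (H378.FE_le E N q)

theorem incl_qExpand (U : LaurentSeries (RE P E)) :
    H708.incl (RE P E) (qExpand (RE P E) q U) = qExpand E q (H708.incl (RE P E) U) :=
  coeffMap_qExpand _ q U

theorem red_qExpand_ne_zero {U : LaurentSeries (RE P E)} (hU : H708.red (RE P E) U ≠ 0) :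
    H708.red (RE P E) (qExpand (RE P E) q U) ≠ 0 := by
  intro h
  apply hU
  have h1 : H708.red (RE P E) (qExpand (RE P E) q U) =
      qExpand _ q (H708.red (RE P E) U) := coeffMap_qExpand _ q U
  rw [h1] at h
  exact qExpand_injective q (h.trans (map_zero _).symm)

theorem qExpand_mem_FE {x : LaurentSeries E} (hx : x ∈ FE E N) :
    qExpand E q x ∈ FE E (N * q) := by
  have h := (βE E N q ⟨x, hx⟩).2
  rwa [coe_heckeBetaBar] at h

theorem qExpand_cst (c : E) : qExpand E q (H708.cst c) = H708.cst c :=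
  (qExpandAlgHomC E q).commutes c

theorem beta_mem_iff' [IsDiscreteValuationRing (RE P E)] {VN : ValuationSubring (FE E N)}
    {V : ValuationSubring (FE E (N * q))} (hVN : IsVinf P E N VN) (hV : IsVinf P E (N * q) V)
    (g : FE E N) : βE E N q g ∈ V ↔ g ∈ VN := by
  rw [hV (βE E N q g), hVN g, coe_heckeBetaBar]
  by_cases hg0 : (g : LaurentSeries E) = 0
  · rw [hg0, map_zero]
    exact ⟨fun _ => H708.IsGaussInt.zero, fun _ => H708.IsGaussInt.zero⟩
  obtain ⟨c, U₁, U₂, hc, h₁, h₂, hm₁, hm₂, he⟩ :=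
    H708.exists_normal_form (H708.intGen_full N)
      (H708.attainsMax_of_isNoetherianRing (RE P E) _) g.2 hg0
  have he' : qExpand E q (g : LaurentSeries E) * H708.incl (RE P E) (qExpand (RE P E) q U₂) =
      H708.cst c * H708.incl (RE P E) (qExpand (RE P E) q U₁) := by
    rw [incl_qExpand, incl_qExpand, ← map_mul, he, map_mul, qExpand_cst]
  have hm₂' : H708.incl (RE P E) (qExpand (RE P E) q U₂) ∈ FE E (N * q) := by
    rw [incl_qExpand]
    exact qExpand_mem_FE hm₂
  rw [H708.isGaussInt_iff_of_normal_form (red_qExpand_ne_zero h₁) (red_qExpand_ne_zero h₂) hm₂' he',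
    H708.isGaussInt_iff_of_normal_form h₁ h₂ hm₂ he]

end Over

end Gauss

end Fermat.Agent.S36.H972

end
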