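import Fermat.Agent.S36.H972.Mod3Alpha

/-!
# S36 / MOD3 (helper972): the concrete Eisenstein instance WITH its `t`-expansion

`exists_eisData` (in `Mod3.lean`) hides the polynomials.  Consumers which need the Eisenstein
constant `G(c)` (cell REG: `π^(q-1) / w ≡ G(c) / (a - c)` on the middle component) use:

* `exists_eisData_map` : as `exists_eisData`, plus `Ψ'.map (valV V1) = Ψ.map (castE E)`;
* `coe_pi_mul_eval` : for such data, `w · G'(c)` has `t`-expansion `Ψ(J)`;
* `exists_eisData_h83` : the same for `Ψ = h83_eisPsi q Φ` (helper83), `A = J ^ (q ^ 2)`: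
  `w · G'(c)` has `t`-expansion `(h83_eisPsi q Φ).eval J  (= q · U` of `h83_eisenstein`).
-/

set_option autoImplicit false
set_option linter.unusedSectionVars false
set_option linter.style.haveILetI false
set_option synthInstance.maxHeartbeats 400000
set_option maxHeartbeats 1600000

noncomputable section

namespace Fermat.Agent.S36.H972

open ModularCurve HahnSeries Polynomial AlgebraicCurve
open Fermat.Agent.A2 Fermat.Agent.A2.Mod Fermat.Agent.A2.H48 Fermat.Agent.S28

section Full

variable {P : ValuationSubring Qb} {E : IntermediateField ℚ Qb} {M q : ℕ} [NeZero M] [NeZero q]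
  {w : RE P E}

/-- helper83's `Ψ` satisfies the interface `EisSeries` (explicit `Φ`). -/
theorem eisSeries_h83 (q : ℕ) [NeZero q] [Fact q.Prime] (Φ : ModPolyData q) :
    ∃ G : (LaurentSeries ℤ)[X],
      EisSeries q (jqModC ℤ ^ (q ^ 2)) (Fermat.Agent.S36.H83.h83_eisPsi q Φ) G := by
  obtain ⟨G, hdec, -, hG, hA⟩ := Fermat.Agent.S36.H83.h83_eisPsi_eq_add q Φ
  have hJ : jqModC ℤ ∈ jjRing q := Subring.subset_closure (by simp)
  have hJq : qExpand ℤ q (jqModC ℤ) ∈ jjRing q := Subring.subset_closure (by simp)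
  have hqq : qExpand ℤ (q * q) (jqModC ℤ) = qExpand ℤ q (qExpand ℤ q (jqModC ℤ)) :=
    (qExpand_qExpand q q (jqModC ℤ)).symm
  refine ⟨G, ?_⟩
  refine
    { monic := Fermat.Agent.S36.H83.h83_eisPsi_monic q Φ
      natDegree_eq := Fermat.Agent.S36.H83.h83_eisPsi_natDegree q Φ
      coeff_mem := ?_
      root := by rw [hqq]; exact Fermat.Agent.S36.H83.h83_eisPsi_eval_jpp q Φ
      A_mem := pow_mem hJ _
      A_cong := ?_
      A_unit := exists_not_dvd_of_red_ne_zero q hA
      dec := by rw [hdec]; ring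
      unit := exists_not_dvd_of_red_ne_zero q hG }
  · intro i
    obtain ⟨Ψ₀, -, hΨ₀⟩ := Fermat.Agent.S36.H83.h83_eisPsi_mem_lifts q Φ (jjRing q) hJ hJq
    rw [← hΨ₀, Polynomial.coeff_map]
    exact (Ψ₀.coeff i).2
  · have h0 : Fermat.Agent.S36.H83.h83_red q
        (qExpand ℤ (q * q) (jqModC ℤ) - jqModC ℤ ^ (q ^ 2)) = 0 := by
      rw [map_sub, hqq, Fermat.Agent.S36.H83.h83_red_jpp, map_pow,
        Fermat.Agent.S36.H83.h83_red_j, sub_self]
    obtain ⟨H, hH⟩ := Fermat.Agent.S36.H83.h83_dvd_of_red_eq_zero q h0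
    exact ⟨H, hH⟩

/-- **The Eisenstein-split data at level `q² M`, with the expansion of `Ψ`.**  As
`exists_eisData`, and moreover `Ψ'` has `t`-expansion `Ψ` (so that, by `EisData.eval_c`,
`w · G'(c)` has `t`-expansion `Ψ(J) = q · G(J)`). -/
theorem exists_eisData_map (hS : Setting P E M q w) (hun : Unram P E q w)
    {A : LaurentSeries ℤ} {Ψ G : (LaurentSeries ℤ)[X]} (hE : EisSeries q A Ψ G)
    {V1 : ValuationSubring (FE E (M * q))} (hV1 : IsVinf P E (M * q) V1) :
    letI : Algebra (FE E (M * q)) (FE E (M * q * q)) := algebraAlong (αE E (M * q) q)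
    ∃ (Ψ' G' : V1[X]) (a c : V1),
      valV V1 a = castE E A ∧ ((c : V1) : FE E (M * q)) = jone E M q ∧
      Ψ'.map (valV V1) = Ψ.map (castE E) ∧
      EisData V1 (cE P E (M * q) w) (jqq E M q) Ψ' G' a c (q - 1) := by
  letI : Algebra (FE E (M * q)) (FE E (M * q * q)) := algebraAlong (αE E (M * q) q)
  haveI := hS.dvr
  have hq := hS.q_prime
  haveI : FiniteDimensional (FE E (M * q)) (FE E (M * q * q)) := finite_alpha hq
  have hMq : M * q ≠ 0 := NeZero.ne _
  obtain ⟨u, hu⟩ := hun
  -- the subring of integral series with expansion in `F_{Mq}`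
  set T : Subring (LaurentSeries ℤ) := (FE E (M * q)).toSubring.comap (castE E) with hT
  have hjjT : jjRing q ≤ T := fun g hg => castE_mem_of_mem_jjRing hg
  have hTlift : ∀ Q : (LaurentSeries ℤ)[X], Q ∈ Polynomial.liftsRing T.subtype →
      ∀ i, castE E (Q.coeff i) ∈ FE E (M * q) := by
    intro Q hQ i
    rw [← Polynomial.lifts_iff_liftsRing, Polynomial.lifts_iff_coeff_lifts] at hQ
    obtain ⟨x, hx⟩ := hQ i
    rw [← hx]
    exact x.2
  have hliftT : ∀ Q : (LaurentSeries ℤ)[X], (∀ i, Q.coeff i ∈ T) →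
      Q ∈ Polynomial.liftsRing T.subtype := by
    intro Q hQ
    rw [← Polynomial.lifts_iff_liftsRing, Polynomial.lifts_iff_coeff_lifts]
    exact fun i => ⟨⟨_, hQ i⟩, rfl⟩
  have hCT : ∀ g ∈ T, (Polynomial.C g : (LaurentSeries ℤ)[X]) ∈ Polynomial.liftsRing T.subtype := by
    intro g hg
    rw [← Polynomial.lifts_iff_liftsRing]
    exact Polynomial.C_mem_lifts T.subtype ⟨g, hg⟩
  have hXT : (Polynomial.X : (LaurentSeries ℤ)[X]) ∈ Polynomial.liftsRing T.subtype := by
    rw [← Polynomial.lifts_iff_liftsRing]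
    exact Polynomial.X_mem_lifts T.subtype
  have hJT : jqModC ℤ ∈ T := hjjT (Subring.subset_closure (by simp))
  have hAT : A ∈ T := hjjT hE.A_mem
  have hΨT : Ψ ∈ Polynomial.liftsRing T.subtype := hliftT Ψ fun i => hjjT (hE.coeff_mem i)
  -- coefficients of `G`
  have hqG : Polynomial.C (q : LaurentSeries ℤ) * G ∈ Polynomial.liftsRing T.subtype := by
    have : Polynomial.C (q : LaurentSeries ℤ) * G =
        Ψ - (Polynomial.X - Polynomial.C A) *
          (Polynomial.X - Polynomial.C (jqModC ℤ)) ^ (q - 1) := by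
      conv_rhs => rw [hE.dec]
      ring
    rw [this]
    exact sub_mem hΨT (mul_mem (sub_mem hXT (hCT _ hAT)) (pow_mem (sub_mem hXT (hCT _ hJT)) _))
  have hq0E : ((q : ℕ) : LaurentSeries E) ≠ 0 := by
    have : ((q : ℕ) : LaurentSeries E) = algebraMap E (LaurentSeries E) ((q : ℕ) : E) :=
      (map_natCast _ q).symm
    rw [this]
    exact (map_ne_zero_iff _ (algebraMap E (LaurentSeries E)).injective).mpr
      (Nat.cast_ne_zero.mpr hq.ne_zero)
  have hqmem : ((q : ℕ) : LaurentSeries E) ∈ FE E (M * q) := natCast_mem _ q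
  have hGF : ∀ i, castE E (G.coeff i) ∈ FE E (M * q) := by
    intro i
    have h1 := hTlift _ hqG i
    rw [Polynomial.coeff_C_mul, map_mul, castE_natCast] at h1
    have h2 : castE E (G.coeff i) =
        ((q : ℕ) : LaurentSeries E)⁻¹ * (((q : ℕ) : LaurentSeries E) * castE E (G.coeff i)) := by
      rw [← mul_assoc, inv_mul_cancel₀ hq0E, one_mul]
    rw [h2]
    exact mul_mem (inv_mem hqmem) h1
  -- lifts
  obtain ⟨Ψ', hΨ'⟩ := exists_lift_poly hV1 Ψ (hTlift Ψ hΨT)
  obtain ⟨G₁, hG₁⟩ := exists_lift_poly hV1 G hGF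
  obtain ⟨a, ha⟩ := exists_lift hV1 A hAT
  obtain ⟨c, hc⟩ := exists_lift hV1 (jqModC ℤ) hJT
  have hcj : ((c : V1) : FE E (M * q)) = jone E M q := by
    apply Subtype.ext
    rw [coe_jone]
    exact hc
  have hinj := valV_injective V1
  have hL2 := H553.vinfBasic P E w (M * q) hMq hS.dvr hS.unif V1 hV1
  have hunif : IsUnif V1 (cE P E (M * q) w) := hL2.1
  set uO : V1 := ⟨cE P E (M * q) (u : RE P E), cE_mem_vinf hV1 _⟩ with huO
  have huOinv : ((uO : V1) : FE E (M * q))⁻¹ ∈ V1 := by
    have : ((uO : V1) : FE E (M * q))⁻¹ = cE P E (M * q) ((u⁻¹ : (RE P E)ˣ) : RE P E) := by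
      rw [huO]
      show (algebraMap E (FE E (M * q)) ((u : RE P E) : E))⁻¹ = algebraMap E (FE E (M * q)) _
      rw [← map_inv₀]
      congr 1
      apply inv_eq_of_mul_eq_one_right
      have h5 := congrArg (RE P E).subtype u.mul_inv
      rw [map_mul, map_one] at h5
      exact h5
    rw [this]
    exact cE_mem_vinf hV1 _
  have huO0 : ((uO : V1) : FE E (M * q)) ≠ 0 := by
    rw [huO]
    show algebraMap E (FE E (M * q)) ((u : RE P E) : E) ≠ 0
    exact (map_ne_zero_iff _ (algebraMap E (FE E (M * q))).injective).mpr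
      (fun h => u.ne_zero (Subtype.ext h))
  have hwu : valV V1 ⟨cE P E (M * q) w, hunif.mem⟩ * valV V1 uO = ((q : ℕ) : LaurentSeries E) := by
    have h1 : cE P E (M * q) w * cE P E (M * q) (u : RE P E) = ((q : ℕ) : FE E (M * q)) := by
      simp only [cE]
      rw [← map_mul, ← hu, map_natCast]
    have h2 := congrArg (fun z : FE E (M * q) => (z : LaurentSeries E)) h1
    show ((cE P E (M * q) w : FE E (M * q)) : LaurentSeries E) *
      ((cE P E (M * q) (u : RE P E) : FE E (M * q)) : LaurentSeries E) = _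
    simpa using h2
  -- the fields
  have hmonic : Ψ'.Monic := Polynomial.monic_of_injective hinj (by rw [hΨ']; exact hE.monic.map _)
  have hdeg : Ψ'.natDegree = Module.finrank (FE E (M * q)) (FE E (M * q * q)) := by
    rw [finrank_alpha hq, ← Polynomial.natDegree_map_eq_of_injective hinj, hΨ',
      hE.monic.natDegree_map, hE.natDegree_eq]
  have hroot : Ψ'.eval₂ (phi V1) (jqq E M q) = 0 := by
    apply (H378.valHom E (M * q * q)).injective
    rw [Polynomial.hom_eval₂, valHom_comp_phi, map_zero, ← Polynomial.eval_map, hΨ',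
      H378.valHom_apply, coe_jqq, Polynomial.eval_map, Polynomial.eval₂_at_apply, hE.root,
      map_zero]
  have hyK : jqq E M q ∉ (algebraMap (FE E (M * q)) (FE E (M * q * q))).range := by
    rintro ⟨g, hg⟩
    exact jqq_not_mem_range hS.q_not_dvd g hg
  have hprime : (Module.finrank (FE E (M * q)) (FE E (M * q * q))).Prime := by
    rw [finrank_alpha hq]
    exact hq
  have hmin := minpoly_eq_map_of_prime hmonic hprime hdeg hroot hyK
  have hdec : Ψ' = (Polynomial.X - Polynomial.C a) * (Polynomial.X - Polynomial.C c) ^ (q - 1) +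
      Polynomial.C ⟨cE P E (M * q) w, hunif.mem⟩ * (Polynomial.C uO * G₁) := by
    apply Polynomial.map_injective _ hinj
    rw [hΨ']
    conv_lhs => rw [hE.dec]
    simp only [Polynomial.map_add, Polynomial.map_mul, Polynomial.map_pow, Polynomial.map_sub,
      Polynomial.map_X, Polynomial.map_C, hG₁, ha, hc]
    rw [← mul_assoc, ← Polynomial.C_mul, hwu, castE_natCast]
  have hsub : IsUnit (a - c) := by
    have hser : (((a - c : V1) : FE E (M * q)) : LaurentSeries E) = castE E (A - jqModC ℤ) := by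
      rw [map_sub, ← ha, ← hc]
      rfl
    refine isUnit_of_inv_mem ?_ (inv_mem_of_castE hq hS.lies_over hV1 hser hE.A_unit)
    intro h0
    rw [h0] at hser
    have h1 : A - jqModC ℤ = 0 := castE_injective E (by rw [map_zero]; exact hser.symm)
    obtain ⟨n, hn⟩ := hE.A_unit
    rw [h1] at hn
    exact hn (by simp)
  have hGu : IsUnit ((Polynomial.C uO * G₁).eval c) := by
    rw [Polynomial.eval_mul, Polynomial.eval_C]
    have hser : (((G₁.eval c : V1) : FE E (M * q)) : LaurentSeries E) =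
        castE E (G.eval (jqModC ℤ)) := by
      have h1 : valV V1 (G₁.eval c) = (G₁.map (valV V1)).eval (valV V1 c) := by
        rw [Polynomial.eval_map, Polynomial.eval₂_at_apply]
      rw [hG₁, hc, Polynomial.eval_map, Polynomial.eval₂_at_apply] at h1
      exact h1
    have hG0 : ((G₁.eval c : V1) : FE E (M * q)) ≠ 0 := by
      intro h0
      rw [h0] at hser
      have h1 : G.eval (jqModC ℤ) = 0 := castE_injective E (by rw [map_zero]; exact hser.symm)
      obtain ⟨n, hn⟩ := hE.unit
      rw [h1] at hn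
      exact hn (by simp)
    exact (isUnit_of_inv_mem huO0 huOinv).mul
      (isUnit_of_inv_mem hG0 (inv_mem_of_castE hq hS.lies_over hV1 hser hE.unit))
  refine ⟨Ψ', Polynomial.C uO * G₁, a, c, ha, hcj, hΨ', ?_⟩
  exact
    { unif := hunif
      arch := arch_vinf hS.unif hV1
      monic := hmonic
      minpoly_eq := hmin
      gen := gen_of_natDegree_eq hmin hdeg
      pos := by have := hq.two_le; omega
      dec := hdec
      unit_sub := hsub
      unit_G := hGu }

/-- For Eisenstein data whose `Ψ'` has `t`-expansion `Ψ`: `w · G'(c)` has `t`-expansion `Ψ(J)`. -/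
theorem coe_pi_mul_eval {V1 : ValuationSubring (FE E (M * q))}
    {Ψ : (LaurentSeries ℤ)[X]} {Ψ' G' : V1[X]} {a c : V1}
    (hc : ((c : V1) : FE E (M * q)) = jone E M q)
    (hΨ' : Ψ'.map (valV V1) = Ψ.map (castE E))
    (h : letI : Algebra (FE E (M * q)) (FE E (M * q * q)) := algebraAlong (αE E (M * q) q)
      EisData V1 (cE P E (M * q) w) (jqq E M q) Ψ' G' a c (q - 1)) :
    ((cE P E (M * q) w * ((G'.eval c : V1) : FE E (M * q)) : FE E (M * q)) : LaurentSeries E) =
      castE E (Ψ.eval (jqModC ℤ)) := by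
  letI : Algebra (FE E (M * q)) (FE E (M * q * q)) := algebraAlong (αE E (M * q) q)
  have h1 : valV V1 (Ψ'.eval c) = (Ψ'.map (valV V1)).eval (valV V1 c) := by
    rw [Polynomial.eval_map, Polynomial.eval₂_at_apply]
  have hcser : valV V1 c = castE E (jqModC ℤ) := by
    rw [valV_apply, hc, coe_jone]
  rw [hΨ', hcser, Polynomial.eval_map, Polynomial.eval₂_at_apply] at h1
  rw [← h1, h.eval_c]
  rfl

/-- **The concrete Eisenstein instance for helper83's `Ψ`.** -/
theorem exists_eisData_h83 (hS : Setting P E M q w) (hun : Unram P E q w)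
    (Φ : ModPolyData q) [Fact q.Prime]
    {V1 : ValuationSubring (FE E (M * q))} (hV1 : IsVinf P E (M * q) V1) :
    letI : Algebra (FE E (M * q)) (FE E (M * q * q)) := algebraAlong (αE E (M * q) q)
    ∃ (Ψ' G' : V1[X]) (a c : V1),
      valV V1 a = castE E (jqModC ℤ ^ (q ^ 2)) ∧ ((c : V1) : FE E (M * q)) = jone E M q ∧
      Ψ'.map (valV V1) = (Fermat.Agent.S36.H83.h83_eisPsi q Φ).map (castE E) ∧
      ((cE P E (M * q) w * ((G'.eval c : V1) : FE E (M * q)) : FE E (M * q)) :
        LaurentSeries E) = castE E ((Fermat.Agent.S36.H83.h83_eisPsi q Φ).eval (jqModC ℤ)) ∧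
      EisData V1 (cE P E (M * q) w) (jqq E M q) Ψ' G' a c (q - 1) := by
  letI : Algebra (FE E (M * q)) (FE E (M * q * q)) := algebraAlong (αE E (M * q) q)
  obtain ⟨G, hE⟩ := eisSeries_h83 q Φ
  obtain ⟨Ψ', G', a, c, ha, hc, hΨ', h⟩ := exists_eisData_map hS hun hE hV1
  exact ⟨Ψ', G', a, c, ha, hc, hΨ', coe_pi_mul_eval hc hΨ' h, h⟩

end Full

end Fermat.Agent.S36.H972

end
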